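/-
PROGRAM MW (S17), strand H, block D4 (FIB), leaf D4b - linear-algebra core (helper29).

For two finite families `u v : τ → Matrix n n A` of square matrices over a commutative ring `A`
we form the "pair matrix"
  `pairMat u v = ∑ s, X s • (u s ⊗ₖ v s - v s ⊗ₖ u s)`   (entries in `A[X_s : s ∈ τ]`)
and the polynomial `fibrePoly u v := coeff_{|n|} (charpoly (pairMat u v)) ∈ A[X_s]`.

If, after a base change `f : A →+* L`, the matrices are simultaneously diagonalised by one invertible
`S` (`S * u s = diag (d s) * S`, `S * v s = diag (e s) * S`), then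
  `map f (fibrePoly u v) = ∏_{i ≠ j} ∑ s, X s * C (d s i * e s j - e s i * d s j)`.

Application (D4b): `A = K[x]`, `u s = ` matrix of multiplication by `φ_a`, `v s = ` matrix of
multiplication by `φ_b` (`s = (a,b)`) on a `K[x]`-basis of the ring of functions regular off `∞`;
`f = ` evaluation at a non-branch value `α` (or the embedding into a splitting field);
`S = [w_j(P_i)]`; the right-hand side is `∏_{P ≠ P'} ⟨t, sig(P,P')⟩`.
-/
import Mathlib

set_option autoImplicit false
set_option linter.unusedSectionVars false

namespace Fermat.Agent.S17.H.Fib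

open Matrix

variable {A : Type*} [CommRing A] {τ n : Type*} [Fintype τ] [Fintype n] [DecidableEq n]

/-- The pair matrix `∑ s, X s • (u s ⊗ₖ v s - v s ⊗ₖ u s)`. -/
noncomputable def pairMat (u v : τ → Matrix n n A) :
    Matrix (n × n) (n × n) (MvPolynomial τ A) :=
  ∑ s : τ, (MvPolynomial.X s : MvPolynomial τ A) •
    ((kroneckerMap (· * ·) (u s) (v s) - kroneckerMap (· * ·) (v s) (u s)).map MvPolynomial.C)

/-- The fibre polynomial: the coefficient of `X ^ |n|` in the characteristic polynomial of the
pair matrix. -/
noncomputable def fibrePoly (u v : τ → Matrix n n A) : MvPolynomial τ A :=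
  (pairMat u v).charpoly.coeff (Fintype.card n)

/-- Naturality of the pair matrix. -/
theorem pairMat_map {L : Type*} [CommRing L] (f : A →+* L) (u v : τ → Matrix n n A) :
    (pairMat u v).map (MvPolynomial.map f) =
      pairMat (fun s => (u s).map f) (fun s => (v s).map f) := by
  ext ⟨i, j⟩ ⟨k, l⟩
  simp [pairMat, Matrix.sum_apply, Matrix.map_apply, kroneckerMap_apply]

/-- Naturality of the fibre polynomial. -/
theorem fibrePoly_map {L : Type*} [CommRing L] (f : A →+* L) (u v : τ → Matrix n n A) :
    MvPolynomial.map f (fibrePoly u v) =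
      fibrePoly (fun s => (u s).map f) (fun s => (v s).map f) := by
  unfold fibrePoly
  rw [← pairMat_map, Matrix.charpoly_map, Polynomial.coeff_map]

/-- The linear form attached to the ordered pair `q = (i, j)` of indices. -/
noncomputable def pairForm {L : Type*} [CommRing L] (d e : τ → n → L) (q : n × n) :
    MvPolynomial τ L :=
  ∑ s : τ, MvPolynomial.X s * MvPolynomial.C (d s q.1 * e s q.2 - e s q.1 * d s q.2)

theorem pairForm_diag {L : Type*} [CommRing L] (d e : τ → n → L) (i : n) :
    pairForm d e (i, i) = 0 := by
  unfold pairForm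
  refine Finset.sum_eq_zero fun s _ => ?_
  rw [mul_comm (e s i) (d s i), sub_self, map_zero, mul_zero]

/-- Conjugation identity: the Kronecker square of `S` diagonalises the pair matrix. -/
theorem kron_mul_pairMat {L : Type*} [CommRing L] (u v : τ → Matrix n n L) (S : Matrix n n L)
    (d e : τ → n → L) (hu : ∀ s, S * u s = diagonal (d s) * S)
    (hv : ∀ s, S * v s = diagonal (e s) * S) :
    (kroneckerMap (· * ·) S S).map (MvPolynomial.C (σ := τ)) * pairMat u v =
      diagonal (pairForm d e) * (kroneckerMap (· * ·) S S).map (MvPolynomial.C (σ := τ)) := by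
  have key : ∀ s : τ, kroneckerMap (· * ·) S S *
      (kroneckerMap (· * ·) (u s) (v s) - kroneckerMap (· * ·) (v s) (u s)) =
      diagonal (fun q : n × n => d s q.1 * e s q.2 - e s q.1 * d s q.2) *
        kroneckerMap (· * ·) S S := by
    intro s
    have h1 : kroneckerMap (· * ·) S S * kroneckerMap (· * ·) (u s) (v s) =
        diagonal (fun q : n × n => d s q.1 * e s q.2) * kroneckerMap (· * ·) S S := by
      rw [← diagonal_kronecker_diagonal]
      exact ((mul_kronecker_mul S (u s) S (v s)).symm.trans (by rw [hu s, hv s])).trans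
        (mul_kronecker_mul (diagonal (d s)) S (diagonal (e s)) S)
    have h2 : kroneckerMap (· * ·) S S * kroneckerMap (· * ·) (v s) (u s) =
        diagonal (fun q : n × n => e s q.1 * d s q.2) * kroneckerMap (· * ·) S S := by
      rw [← diagonal_kronecker_diagonal]
      exact ((mul_kronecker_mul S (v s) S (u s)).symm.trans (by rw [hu s, hv s])).trans
        (mul_kronecker_mul (diagonal (e s)) S (diagonal (d s)) S)
    rw [mul_sub, h1, h2, ← sub_mul, diagonal_sub]
  have hdiag : (diagonal (pairForm d e) : Matrix (n × n) (n × n) (MvPolynomial τ L)) =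
      ∑ s : τ, (MvPolynomial.X s : MvPolynomial τ L) •
        (diagonal (fun q : n × n => d s q.1 * e s q.2 - e s q.1 * d s q.2)).map
          (MvPolynomial.C (σ := τ)) := by
    ext q r
    rw [Matrix.sum_apply]
    by_cases hqr : q = r
    · subst hqr
      simp [pairForm, Matrix.diagonal_apply_eq]
    · simp [Matrix.diagonal_apply_ne _ hqr]
  rw [hdiag, pairMat, Finset.mul_sum, Finset.sum_mul]
  refine Finset.sum_congr rfl fun s _ => ?_
  rw [Matrix.mul_smul, Matrix.smul_mul, ← Matrix.map_mul, ← Matrix.map_mul, key s]

/-- **Core of D4b.** After a base change under which the two families are simultaneously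
diagonalised by one invertible matrix, the fibre polynomial is the product over the ordered pairs
of distinct indices of the linear forms `∑ s, X s * C (d s i * e s j - e s i * d s j)`. -/
theorem fibrePoly_eq_prod {L : Type*} [CommRing L] (u v : τ → Matrix n n L)
    (S : (Matrix n n L)ˣ) (d e : τ → n → L) (hu : ∀ s, S.val * u s = diagonal (d s) * S.val)
    (hv : ∀ s, S.val * v s = diagonal (e s) * S.val) :
    fibrePoly u v = ∏ q ∈ (Finset.univ : Finset n).offDiag, pairForm d e q := by
  classical
  -- the Kronecker square of `S`, as a unit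
  have hinv1 : (kroneckerMap (· * ·) S.val S.val).map (MvPolynomial.C (σ := τ)) *
      (kroneckerMap (· * ·) S⁻¹.val S⁻¹.val).map (MvPolynomial.C (σ := τ)) = 1 := by
    rw [← Matrix.map_mul, ← mul_kronecker_mul, Units.mul_inv, one_kronecker_one]
    exact Matrix.map_one _ (map_zero _) (map_one _)
  have hinv2 : (kroneckerMap (· * ·) S⁻¹.val S⁻¹.val).map (MvPolynomial.C (σ := τ)) *
      (kroneckerMap (· * ·) S.val S.val).map (MvPolynomial.C (σ := τ)) = 1 := by
    rw [← Matrix.map_mul, ← mul_kronecker_mul, Units.inv_mul, one_kronecker_one]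
    exact Matrix.map_one _ (map_zero _) (map_one _)
  let U : (Matrix (n × n) (n × n) (MvPolynomial τ L))ˣ :=
    ⟨(kroneckerMap (· * ·) S.val S.val).map (MvPolynomial.C (σ := τ)),
      (kroneckerMap (· * ·) S⁻¹.val S⁻¹.val).map (MvPolynomial.C (σ := τ)), hinv1, hinv2⟩
  have hconj : pairMat u v = U⁻¹.val * diagonal (pairForm d e) * U.val := by
    have h := kron_mul_pairMat u v S.val d e hu hv
    have h' : U.val * pairMat u v = diagonal (pairForm d e) * U.val := h
    calc pairMat u v = U⁻¹.val * (U.val * pairMat u v) := by
          rw [← mul_assoc, Units.inv_mul, one_mul]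
      _ = U⁻¹.val * diagonal (pairForm d e) * U.val := by rw [h', mul_assoc]
  have hchar : (pairMat u v).charpoly =
      ∏ q : n × n, (Polynomial.X - Polynomial.C (pairForm d e q)) := by
    rw [hconj]
    have := Matrix.charpoly_units_conj' U (diagonal (pairForm d e))
    rw [← Matrix.charpoly_diagonal]
    convert this using 2
    simp
  -- split the product into the diagonal and the off-diagonal part
  have hsplit : (∏ q : n × n, (Polynomial.X - Polynomial.C (pairForm d e q))) =
      Polynomial.X ^ Fintype.card n *
        ∏ q ∈ (Finset.univ : Finset n).offDiag,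
          (Polynomial.X - Polynomial.C (pairForm d e q)) := by
    rw [← Finset.univ_product_univ, ← Finset.diag_union_offDiag,
      Finset.prod_union (Finset.disjoint_diag_offDiag _)]
    congr 1
    rw [Finset.prod_eq_pow_card (b := (Polynomial.X : Polynomial (MvPolynomial τ L)))]
    · rw [Finset.diag_card, Finset.card_univ]
    · intro q hq
      have hq' : q.1 = q.2 := (Finset.mem_diag.mp hq).2
      have : q = (q.1, q.1) := Prod.ext rfl hq'.symm
      rw [this, pairForm_diag, map_zero, sub_zero]
  unfold fibrePoly
  rw [hchar, hsplit]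
  have hcoeff : (Polynomial.X ^ Fintype.card n *
        ∏ q ∈ (Finset.univ : Finset n).offDiag,
          (Polynomial.X - Polynomial.C (pairForm d e q))).coeff (Fintype.card n) =
      (∏ q ∈ (Finset.univ : Finset n).offDiag,
          (Polynomial.X - Polynomial.C (pairForm d e q))).coeff 0 := by
    have := Polynomial.coeff_X_pow_mul (∏ q ∈ (Finset.univ : Finset n).offDiag,
          (Polynomial.X - Polynomial.C (pairForm d e q))) (Fintype.card n) 0
    rwa [zero_add] at this
  rw [hcoeff, Polynomial.coeff_zero_eq_eval_zero, Polynomial.eval_prod]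
  simp only [Polynomial.eval_sub, Polynomial.eval_X, Polynomial.eval_C, zero_sub]
  rw [Finset.prod_neg, Finset.offDiag_card, Finset.card_univ]
  have heven : Even (Fintype.card n * Fintype.card n - Fintype.card n) := by
    have h := Nat.even_mul_pred_self (Fintype.card n)
    rwa [Nat.mul_sub_one] at h
  rw [heven.neg_one_pow, one_mul]

/-- **D4b core, base-change form.** -/
theorem map_fibrePoly_eq_prod {L : Type*} [CommRing L] (f : A →+* L) (u v : τ → Matrix n n A)
    (S : (Matrix n n L)ˣ) (d e : τ → n → L)
    (hu : ∀ s, S.val * (u s).map f = diagonal (d s) * S.val)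
    (hv : ∀ s, S.val * (v s).map f = diagonal (e s) * S.val) :
    MvPolynomial.map f (fibrePoly u v) =
      ∏ q ∈ (Finset.univ : Finset n).offDiag, pairForm d e q := by
  rw [fibrePoly_map]
  exact fibrePoly_eq_prod _ _ S d e hu hv

end Fermat.Agent.S17.H.Fib
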