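import Fermat.Agent.S17.H.Fib.FibreData
import Fermat.Agent.S17.H.Glob.FibreCore
import Fermat.Agent.S17.H.Glob.FibreWeightExit

/-!
# Program MW (S17), strand H, block D4 (adjugate route): the curve instance (FIB)

`F` a function field of one variable over an algebraically closed field `K` of characteristic
zero, `v₀` a place, `x` regular off `v₀` with a pole of order `n0 > 0` at `v₀`, and
`φ : Fin r → F` a family of functions regular off `v₀` with `ord φ_a + ord φ_b ≥ -d` at `v₀` for
`a ≠ b`.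

`exists_fibrePoly_adj` : there is `p ∈ K[x][t]` (variables `t_{ab}`, `(a, b) ∈ Fin r × Fin r`)
all of whose nonzero `t`-coefficients `c` satisfy `deg_x c + 2 g ≤ (n0 - 1)(d - 1)`, and such
that for every unramified fibre `P_1, …, P_{n0}` of `x` over `α` the product over the ordered
pairs `i ≠ j` of the linear forms `∑_{a,b} t_{ab} (φ_a(P_i) φ_b(P_j) - φ_b(P_i) φ_a(P_j))` is a
nonzero constant times `p(α; t)`.

Instance of the formal fibre identity `FibreCore.fibre_identity_poly` for `S = ↥(regOff v₀)`,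
`j` the inclusion into `F`, the points `regEval` of the fibre, with the Apéry basis, the
structure matrices and the coordinate matrix of `Glob.FibreWeight.exists_fibre_weight_exit`, and
`det [w_k(P_i)] ≠ 0` (`det_regEval_ne_zero`).
-/

set_option autoImplicit false

namespace Fermat.Agent.S17.H.Fib

open AlgebraicCurve Matrix
open Fermat.Agent.S17.R Fermat.Agent.S24.FF

variable {K F : Type*} [Field K] [Field F] [Algebra K F]
variable [IsAlgClosed K] [CharZero K] [Algebra.EssFiniteType K F]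

/-- **FIB exit: the reduced fibre polynomial** (row S17.H.D4s.FIB).  The hypothesis `_hφ0` is not
used. -/
theorem exists_fibrePoly_adj (htr : Algebra.trdeg K F = 1) (v₀ : Place K F) {x : F}
    (hx : x ∈ regOff v₀) {n0 : ℕ} (hn0 : 0 < n0) (hord : v₀.ord x = -(n0 : ℤ))
    {r : ℕ} (φ : Fin r → F) (hφ : ∀ a, φ a ∈ regOff v₀) (_hφ0 : ∀ a, φ a ≠ 0) {d : ℕ}
    (hd : ∀ a b, a ≠ b → -(d : ℤ) ≤ v₀.ord (φ a) + v₀.ord (φ b)) :
    ∃ p : MvPolynomial (Fin r × Fin r) (Polynomial K),
      (∀ m, p.coeff m ≠ 0 → (p.coeff m).natDegree + 2 * gR K F ≤ (n0 - 1) * (d - 1)) ∧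
      ∀ (α : K) (P : Fin n0 → Place K F), Function.Injective P →
        (∀ i, 0 < (P i).ord (x - algebraMap K F α)) →
        ∀ a : Fin r → Fin n0 → K,
          (∀ s i, φ s = algebraMap K F (a s i) ∨
            0 < (P i).ord (φ s - algebraMap K F (a s i))) →
          ∃ c : K, c ≠ 0 ∧
            ∏ q ∈ (Finset.univ : Finset (Fin n0)).offDiag,
                pairForm (fun (s : Fin r × Fin r) i => a s.1 i) (fun s i => a s.2 i) q
              = MvPolynomial.C c * MvPolynomial.map (Polynomial.evalRingHom α) p := by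
  classical
  obtain ⟨n, rfl⟩ : ∃ n, n0 = n + 1 := ⟨n0 - 1, by omega⟩
  obtain ⟨w, hw0, hwR, hbasis, hW⟩ :=
    Glob.FibreWeight.exists_fibre_weight_exit htr v₀ hx hord
  obtain ⟨M, Ct, hM, hC, hdeg⟩ := hW φ hφ hd
  refine ⟨Ct.det, fun m hm => ?_, ?_⟩
  · rw [Nat.add_sub_cancel]
    exact hdeg m hm
  · intro α P hP hα a ha
    obtain ⟨hPne, -, -⟩ := fibre_ord htr v₀ hx (Nat.succ_pos n) hord α P hP hα
    let xS : ↥(regOff v₀) := ⟨x, hx⟩
    let wS : Fin (n + 1) → ↥(regOff v₀) := fun i => ⟨w i, hwR i⟩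
    let φS : Fin r → ↥(regOff v₀) := fun s => ⟨φ s, hφ s⟩
    let ev : Fin (n + 1) → (↥(regOff v₀) →ₐ[K] K) := fun i => regEval htr v₀ (P i) (hPne i)
    have hev : ∀ i, ev i xS = α := fun i =>
      (regEval_eq_iff htr v₀ (P i) (hPne i) xS α).mpr (Or.inr (hα i))
    have hV : (Matrix.of fun i k => ev i (wS k)).det ≠ 0 :=
      det_regEval_ne_zero htr v₀ hx (Nat.succ_pos n) hord w hwR hbasis α P hP hα hPne
    have : Infinite K := Infinite.of_injective (Nat.cast : ℕ → K) Nat.cast_injective
    have key := FibreCore.fibre_identity_poly (regOff v₀).val Subtype.val_injective xS wS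
      (Subtype.ext hw0) φS M hM Ct hC α ev hev hV
    have ha1 : (fun (s : Fin r × Fin r) i => ev i (φS s.1)) = fun s i => a s.1 i :=
      funext fun s => funext fun i =>
        (regEval_eq_iff htr v₀ (P i) (hPne i) (φS s.1) (a s.1 i)).mpr (ha s.1 i)
    have ha2 : (fun (s : Fin r × Fin r) i => ev i (φS s.2)) = fun s i => a s.2 i :=
      funext fun s => funext fun i =>
        (regEval_eq_iff htr v₀ (P i) (hPne i) (φS s.2) (a s.2 i)).mpr (ha s.2 i)
    rw [ha1, ha2] at key
    exact ⟨_, pow_ne_zero 2 hV, key⟩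

end Fermat.Agent.S17.H.Fib
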