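/-
PROGRAM MW (S17), strand H, block D4 (FIB): the height half of the fibre inequality, with no
curve in it (helper130).

If the product of the linear forms `pairForm d e q` (`q` running over the ordered pairs of distinct
indices) is a nonzero constant times the value at `α` of a FIXED polynomial `G'` in `t` whose
coefficients are polynomials of degree `≤ E` in one variable, then

  `∑ q, hT (d s q.1 * e s q.2 - e s q.1 * d s q.2)_s ≤ E * hQ α + C`,

with `C` depending only on `G'`, `E` and the index types.  Proof: Gelfond's inequality for the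
product of the linear forms, projectivity of `hT`, and the evaluation bound for the coefficient
family of `G'`, homogenised in `(α, 1)`.
-/
import Fermat.Agent.S17.H.A.Eval
import Fermat.Agent.S17.H.AbsHeight.Gelfond
import Fermat.Agent.S17.H.AbsHeight.GaussMahler
import Fermat.Agent.S17.H.Fib.PairCore

set_option autoImplicit false
set_option linter.unusedSectionVars false

namespace Fermat.Agent.S17.H.Fib.HeightCore

open Fermat.Agent.S17.H
open Fermat.Agent.S17.H.Fib
open Fermat.Agent.S17.H.AbsHeight.GelfondNF
open Fermat.Agent.S17.H.AbsHeight.Gelfond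

section linear

variable {τ : Type*} [Fintype τ] [DecidableEq τ]

/-- The linear form with coefficient vector `z`. -/
noncomputable def linForm {L : Type*} [CommRing L] (z : τ → L) : MvPolynomial τ L :=
  ∑ s : τ, MvPolynomial.X s * MvPolynomial.C (z s)

theorem coeff_linForm_single {L : Type*} [CommRing L] (z : τ → L) (s : τ) :
    (linForm z).coeff (Finsupp.single s 1) = z s := by
  unfold linForm
  rw [MvPolynomial.coeff_sum, Finset.sum_eq_single s]
  · rw [mul_comm, MvPolynomial.coeff_C_mul, MvPolynomial.coeff_X, if_pos rfl, mul_one]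
  · intro s' _ hs'
    rw [mul_comm, MvPolynomial.coeff_C_mul, MvPolynomial.coeff_X, if_neg, mul_zero]
    intro h
    exact hs' (Finsupp.single_left_injective one_ne_zero h)
  · intro h
    exact absurd (Finset.mem_univ s) h

theorem exists_of_mem_support_linForm {L : Type*} [CommRing L] (z : τ → L) {m : τ →₀ ℕ}
    (hm : m ∈ (linForm z).support) : ∃ s, m = Finsupp.single s 1 ∧ z s ≠ 0 := by
  rw [MvPolynomial.mem_support_iff] at hm
  by_contra hcon
  push Not at hcon
  apply hm
  unfold linForm
  rw [MvPolynomial.coeff_sum]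
  refine Finset.sum_eq_zero fun s _ => ?_
  rw [mul_comm, MvPolynomial.coeff_C_mul, MvPolynomial.coeff_X]
  by_cases h : Finsupp.single s 1 = m
  · rw [if_pos h, mul_one]
    exact hcon s h.symm
  · rw [if_neg h, mul_zero]

theorem totalDegree_linForm_le {L : Type*} [CommRing L] [Nontrivial L] (z : τ → L) :
    (linForm z).totalDegree ≤ 1 := by
  unfold linForm
  refine (MvPolynomial.totalDegree_finsetSum _ _).trans ?_
  refine Finset.sup_le fun s _ => ?_
  refine (MvPolynomial.totalDegree_mul _ _).trans ?_
  rw [MvPolynomial.totalDegree_C, add_zero, MvPolynomial.totalDegree_X]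

/-- The height of the coefficient tuple of a linear form is the height of its coefficient
vector. -/
theorem hT_mvCoeffTuple_linForm (z : τ → AlgebraicClosure ℚ) :
    hT (mvCoeffTuple (linForm z)) = hT z := by
  classical
  let g : {s : τ // z s ≠ 0} → τ := Subtype.val
  have hg : Function.Injective g := Subtype.val_injective
  have h1 : hT (z ∘ g) = hT z := by
    refine hT_comp_of_support_subset hg z fun j hj => ⟨⟨j, hj⟩, rfl⟩
  let e : {s : τ // z s ≠ 0} ≃ (linForm z).support :=
    Equiv.ofBijective
      (fun s => ⟨Finsupp.single s.1 1, by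
        rw [MvPolynomial.mem_support_iff, coeff_linForm_single]
        exact s.2⟩)
      ⟨fun s s' h => by
        have h' : Finsupp.single s.1 1 = Finsupp.single s'.1 1 := congrArg Subtype.val h
        exact Subtype.ext (Finsupp.single_left_injective one_ne_zero h'),
       fun m => by
        obtain ⟨s, hs, hz⟩ := exists_of_mem_support_linForm z m.2
        exact ⟨⟨s, hz⟩, Subtype.ext hs.symm⟩⟩
  have h2 : mvCoeffTuple (linForm z) ∘ e = z ∘ g := by
    funext s
    show (linForm z).coeff (Finsupp.single s.1 1) = z s.1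
    exact coeff_linForm_single z s.1
  rw [← h1, ← h2, hT_comp_equiv]

end linear

section scalar

variable {τ : Type*}

/-- Multiplying a polynomial by a nonzero constant does not change the height of its coefficient
tuple. -/
theorem hT_mvCoeffTuple_C_mul {c : AlgebraicClosure ℚ} (hc : c ≠ 0)
    (q : MvPolynomial τ (AlgebraicClosure ℚ)) :
    hT (mvCoeffTuple (MvPolynomial.C c * q)) = hT (mvCoeffTuple q) := by
  classical
  have hsupp : ∀ m, m ∈ (MvPolynomial.C c * q).support ↔ m ∈ q.support := by
    intro m
    rw [MvPolynomial.mem_support_iff, MvPolynomial.mem_support_iff, MvPolynomial.coeff_C_mul]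
    exact ⟨fun h h' => h (by rw [h', mul_zero]), fun h => mul_ne_zero hc h⟩
  let e : (MvPolynomial.C c * q).support ≃ q.support := Equiv.subtypeEquivRight hsupp
  have h1 : mvCoeffTuple (MvPolynomial.C c * q) = (c • mvCoeffTuple q) ∘ e := by
    funext m
    show (MvPolynomial.C c * q).coeff m.1 = c * q.coeff m.1
    exact MvPolynomial.coeff_C_mul m.1 c q
  rw [h1, hT_comp_equiv, hT_smul _ hc]

end scalar

section evaluation

variable {τ : Type*} [Fintype τ]

open Polynomial in
/-- The homogenisation in degree `E` of a polynomial of degree `≤ E`. -/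
noncomputable def homog (E : ℕ) (p : (AlgebraicClosure ℚ)[X]) :
    MvPolynomial (Fin 2) (AlgebraicClosure ℚ) :=
  ∑ j ∈ Finset.range (E + 1),
    MvPolynomial.C (p.coeff j) * MvPolynomial.X 0 ^ j * MvPolynomial.X 1 ^ (E - j)

open Polynomial in
theorem homog_isHomogeneous (E : ℕ) (p : (AlgebraicClosure ℚ)[X]) :
    (homog E p).IsHomogeneous E := by
  unfold homog
  refine MvPolynomial.IsHomogeneous.sum _ _ _ fun j hj => ?_
  have hj' : j ≤ E := Nat.lt_succ_iff.mp (Finset.mem_range.mp hj)
  have h1 := ((MvPolynomial.isHomogeneous_C (Fin 2) (p.coeff j)).mul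
      ((MvPolynomial.isHomogeneous_X (AlgebraicClosure ℚ) (0 : Fin 2)).pow j)).mul
        ((MvPolynomial.isHomogeneous_X (AlgebraicClosure ℚ) (1 : Fin 2)).pow (E - j))
  have h2 : 0 + 1 * j + 1 * (E - j) = E := by omega
  rw [h2] at h1
  exact h1

open Polynomial in
theorem eval_homog {E : ℕ} {p : (AlgebraicClosure ℚ)[X]} (hp : p.natDegree ≤ E)
    (α : AlgebraicClosure ℚ) :
    MvPolynomial.eval ![α, 1] (homog E p) = p.eval α := by
  unfold homog
  rw [map_sum, Polynomial.eval_eq_sum_range' (Nat.lt_succ_of_le hp)]
  refine Finset.sum_congr rfl fun j _ => ?_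
  simp

open Polynomial in
/-- Evaluation bound for the coefficient tuple of a polynomial in `t` whose coefficients are
polynomials of degree `≤ E` in one variable. -/
theorem exists_hT_mvCoeffTuple_map_eval_le (G' : MvPolynomial τ (AlgebraicClosure ℚ)[X]) (E : ℕ)
    (hE : ∀ m, (G'.coeff m).natDegree ≤ E) :
    ∃ C : ℝ, ∀ α : AlgebraicClosure ℚ,
      hT (mvCoeffTuple (MvPolynomial.map (Polynomial.evalRingHom α) G')) ≤ E * hQ α + C := by
  classical
  obtain ⟨C, hC⟩ := hT_eval_le (ι := Fin 2) (ι' := G'.support) (N := E)
    (fun m => homog E (G'.coeff m.1)) (fun m => homog_isHomogeneous E _)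
  refine ⟨C, fun α => ?_⟩
  have h0 := hC ![α, 1]
  have hval : (fun m : G'.support => MvPolynomial.eval ![α, 1] (homog E (G'.coeff m.1)))
      = fun m : G'.support => (G'.coeff m.1).eval α := by
    funext m
    exact eval_homog (hE m.1) α
  rw [hval] at h0
  have hsub : ∀ m, m ∈ (MvPolynomial.map (Polynomial.evalRingHom α) G').support →
      m ∈ G'.support := by
    intro m hm
    rw [MvPolynomial.mem_support_iff] at hm ⊢
    intro h
    apply hm
    rw [MvPolynomial.coeff_map, h]
    simp
  let f : (MvPolynomial.map (Polynomial.evalRingHom α) G').support → G'.support :=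
    fun m => ⟨m.1, hsub m.1 m.2⟩
  have hf : Function.Injective f := by
    intro m m' h
    have h' : (f m).1 = (f m').1 := congrArg Subtype.val h
    exact Subtype.ext h'
  have h1 : mvCoeffTuple (MvPolynomial.map (Polynomial.evalRingHom α) G')
      = (fun m : G'.support => (G'.coeff m.1).eval α) ∘ f := by
    funext m
    show (MvPolynomial.map (Polynomial.evalRingHom α) G').coeff m.1 = (G'.coeff m.1).eval α
    rw [MvPolynomial.coeff_map]
    rfl
  have h2 : hT ((fun m : G'.support => (G'.coeff m.1).eval α) ∘ f)
      = hT (fun m : G'.support => (G'.coeff m.1).eval α) := by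
    refine hT_comp_of_support_subset hf _ fun m hm => ?_
    refine ⟨⟨m.1, ?_⟩, rfl⟩
    rw [MvPolynomial.mem_support_iff, MvPolynomial.coeff_map]
    exact hm
  rw [h1, h2]
  have h3 : hT ![α, 1] = hQ α := rfl
  rw [h3] at h0
  linarith

end evaluation

section main

variable {τ n : Type*} [Fintype τ] [DecidableEq τ] [Fintype n] [DecidableEq n]

theorem pairForm_eq_linForm (d e : τ → n → AlgebraicClosure ℚ) (q : n × n) :
    pairForm d e q = linForm (fun s => d s q.1 * e s q.2 - e s q.1 * d s q.2) := rfl

open Polynomial in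
/-- **The height half of the fibre inequality.** -/
theorem exists_sum_hT_le_of_prod_eq (G' : MvPolynomial τ (AlgebraicClosure ℚ)[X]) (E : ℕ)
    (hE : ∀ m, (G'.coeff m).natDegree ≤ E) :
    ∃ C : ℝ, ∀ (α c : AlgebraicClosure ℚ) (d e : τ → n → AlgebraicClosure ℚ), c ≠ 0 →
      (∀ q ∈ (Finset.univ : Finset n).offDiag, pairForm d e q ≠ 0) →
      ∏ q ∈ (Finset.univ : Finset n).offDiag, pairForm d e q
        = MvPolynomial.C c * MvPolynomial.map (Polynomial.evalRingHom α) G' →
      ∑ q ∈ (Finset.univ : Finset n).offDiag,
          hT (fun s : τ => d s q.1 * e s q.2 - e s q.1 * d s q.2) ≤ E * hQ α + C := by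
  classical
  obtain ⟨C₂, hC₂⟩ := exists_hT_mvCoeffTuple_map_eval_le G' E hE
  set S : Finset (n × n) := (Finset.univ : Finset n).offDiag with hS
  refine ⟨C₂ + S.card * gelfondConst ((S.card + 1) ^ Fintype.card τ), ?_⟩
  intro α c d e hc hne hprod
  have hdeg : ∑ q ∈ S, (pairForm d e q).totalDegree ≤ S.card := by
    calc ∑ q ∈ S, (pairForm d e q).totalDegree ≤ ∑ _q ∈ S, 1 :=
          Finset.sum_le_sum fun q _ => by
            rw [pairForm_eq_linForm]
            exact totalDegree_linForm_le _
      _ = S.card := by simp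
  have hG := abs_hT_mvCoeffTuple_finset_prod_le S (fun q => pairForm d e q) hne hdeg
  have hG' := (abs_le.mp hG).1
  have hlin : ∀ q ∈ S, hT (mvCoeffTuple (pairForm d e q))
      = hT (fun s : τ => d s q.1 * e s q.2 - e s q.1 * d s q.2) := by
    intro q _
    rw [pairForm_eq_linForm]
    exact hT_mvCoeffTuple_linForm _
  rw [Finset.sum_congr rfl hlin] at hG'
  have hR : hT (mvCoeffTuple (∏ q ∈ S, pairForm d e q))
      = hT (mvCoeffTuple (MvPolynomial.map (Polynomial.evalRingHom α) G')) := by
    rw [hprod]
    exact hT_mvCoeffTuple_C_mul hc _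
  rw [hR] at hG'
  have h3 := hC₂ α
  linarith

end main

end Fermat.Agent.S17.H.Fib.HeightCore
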