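/-
PROGRAM MW (S17), strand H, block D4 (FIB): the height half of the fibre inequality in the literal
of the HT owner (helper261, report 10826 (2)); a corollary of `Fib/FibreHeightCore.lean`
(helper130).
-/
import Fermat.Agent.S17.H.Fib.FibreHeightCore

set_option autoImplicit false

namespace Fermat.Agent.S17.H.Fib

open Fermat.Agent.S17.H

/-- **The height half of the fibre inequality** (`Fin n`-indexed fibre, the nonvanishing stated on
the coefficient vectors). -/
theorem sum_hT_pairForm_le {τ : Type*} [Fintype τ] {n : ℕ}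
    (p : MvPolynomial τ (Polynomial (AlgebraicClosure ℚ))) (E : ℕ)
    (hp : ∀ m, (p.coeff m).natDegree ≤ E) :
    ∃ C : ℝ, ∀ (α c : AlgebraicClosure ℚ) (a b : τ → Fin n → AlgebraicClosure ℚ), c ≠ 0 →
      (∀ q ∈ (Finset.univ : Finset (Fin n)).offDiag,
        (fun s : τ => a s q.1 * b s q.2 - b s q.1 * a s q.2) ≠ 0) →
      ∏ q ∈ (Finset.univ : Finset (Fin n)).offDiag, pairForm a b q
        = MvPolynomial.C c * MvPolynomial.map (Polynomial.evalRingHom α) p →
      ∑ q ∈ (Finset.univ : Finset (Fin n)).offDiag,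
          hT (fun s : τ => a s q.1 * b s q.2 - b s q.1 * a s q.2) ≤ (E : ℝ) * hQ α + C := by
  classical
  obtain ⟨C, hC⟩ := HeightCore.exists_sum_hT_le_of_prod_eq (n := Fin n) p E hp
  refine ⟨C, fun α c a b hc hne hprod => hC α c a b hc (fun q hq h0 => hne q hq ?_) hprod⟩
  funext s
  have h1 := HeightCore.coeff_linForm_single
    (fun s : τ => a s q.1 * b s q.2 - b s q.1 * a s q.2) s
  rw [← HeightCore.pairForm_eq_linForm, h0] at h1
  simpa using h1.symm

end Fermat.Agent.S17.H.Fib
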