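import Mathlib

/-!
# Program MW (S17), strand H, block D4b: the embedding package (instance β)

`R` a domain which is free of rank `n` over a domain `A` of characteristic zero, with basis `b`.
Then there are an injective ring homomorphism `f : A → Ω` into an algebraically closed field
(`Ω = AlgebraicClosure (FractionRing R)`) and `n` ring homomorphisms `σ i : R → Ω` extending
`f` such that `f (discr b) = det [σ i (b j)] ^ 2`.

This is the input of the divisibility `disc ∣ G` (D4d) in the shape consumed by
`Fib.map_fibrePoly_eq_prod`.
-/

set_option autoImplicit false

namespace Fermat.Agent.S17.H.Fib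

open scoped nonZeroDivisors

/-- **The embedding package.**  For a basis `b` of the domain `R` over the characteristic zero
domain `A`, the `n` embeddings of `Frac R` over `Frac A` into an algebraic closure. -/
theorem exists_embeddings {A R : Type*} [CommRing A] [IsDomain A] [CharZero A] [CommRing R]
    [IsDomain R] [Algebra A R] {n : ℕ} (b : Module.Basis (Fin n) A R) :
    ∃ (f : A →+* AlgebraicClosure (FractionRing R))
      (σ : Fin n → R →+* AlgebraicClosure (FractionRing R)),
      Function.Injective f ∧ (∀ i a, σ i (algebraMap A R a) = f a) ∧
        f (Algebra.discr A b) = (Matrix.of fun i j => σ i (b j)).det ^ 2 := by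
  classical
  have : Module.Free A R := Module.Free.of_basis b
  have : Module.Finite A R := Module.Finite.of_basis b
  have : FaithfulSMul A R := inferInstance
  have : Algebra.IsIntegral A R := Algebra.IsIntegral.of_finite A R
  have : Algebra.IsAlgebraic A R := Algebra.IsIntegral.isAlgebraic
  have : FaithfulSMul A (FractionRing R) :=
    (faithfulSMul_iff_algebraMap_injective A (FractionRing R)).mpr (by
      rw [IsScalarTower.algebraMap_eq A R (FractionRing R)]
      exact (IsFractionRing.injective R (FractionRing R)).comp
        (FaithfulSMul.algebraMap_injective A R))
  letI : Algebra (FractionRing A) (FractionRing R) := FractionRing.liftAlgebra A (FractionRing R)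
  have : IsScalarTower A (FractionRing A) (FractionRing R) :=
    FractionRing.isScalarTower_liftAlgebra A (FractionRing R)
  have : IsLocalization (Algebra.algebraMapSubmonoid R A⁰) (FractionRing R) := inferInstance
  let b' : Module.Basis (Fin n) (FractionRing A) (FractionRing R) :=
    b.localizationLocalization (FractionRing A) A⁰ (FractionRing R)
  have : Module.Finite (FractionRing A) (FractionRing R) := Module.Finite.of_basis b'
  have : CharZero (FractionRing A) :=
    charZero_of_injective_algebraMap (IsFractionRing.injective A (FractionRing A))
  have : Algebra.IsSeparable (FractionRing A) (FractionRing R) := inferInstance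
  have hcard : Fintype.card
      (FractionRing R →ₐ[FractionRing A] AlgebraicClosure (FractionRing R)) = n := by
    rw [AlgHom.card, Module.finrank_eq_card_basis b', Fintype.card_fin]
  let e : Fin n ≃ (FractionRing R →ₐ[FractionRing A] AlgebraicClosure (FractionRing R)) :=
    (Fintype.equivFinOfCardEq hcard).symm
  refine ⟨(algebraMap (FractionRing A) (AlgebraicClosure (FractionRing R))).comp
      (algebraMap A (FractionRing A)),
    fun i => (e i).toRingHom.comp (algebraMap R (FractionRing R)), ?_, ?_, ?_⟩
  · exact (algebraMap (FractionRing A) (AlgebraicClosure (FractionRing R))).injective.comp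
      (IsFractionRing.injective A (FractionRing A))
  · intro i a
    have h1 : algebraMap R (FractionRing R) (algebraMap A R a)
        = algebraMap (FractionRing A) (FractionRing R) (algebraMap A (FractionRing A) a) := by
      rw [← IsScalarTower.algebraMap_apply A R (FractionRing R),
        ← IsScalarTower.algebraMap_apply A (FractionRing A) (FractionRing R)]
    simp only [RingHom.coe_comp, Function.comp_apply, AlgHom.toRingHom_eq_coe, RingHom.coe_coe]
    rw [h1, AlgHom.commutes]
  · have h := Algebra.discr_eq_det_embeddingsMatrixReindex_pow_two (FractionRing A)
      (AlgebraicClosure (FractionRing R)) b' e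
    rw [Algebra.discr_localizationLocalization A A⁰ (FractionRing R) b] at h
    rw [RingHom.comp_apply, h, ← Matrix.det_transpose]
    congr 2
    ext i j
    simp [Algebra.embeddingsMatrixReindex, Algebra.embeddingsMatrix, b',
      Module.Basis.localizationLocalization_apply]

end Fermat.Agent.S17.H.Fib
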