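/-
PROGRAM MW (S17), strand H, block D4 (FIB), leaf D4b - the fibre polynomial of a curve (helper29).

Level-free: `F / K` a function field of one variable over an algebraically closed field of
characteristic zero, `v₀` a place, `x` regular off `v₀` with a pole of order `n0` at `v₀`,
`w : Fin n0 → F` a `K[x]`-basis of `regOff v₀` (leaf R14, `exists_apery_basis`), `φ ψ : τ → F`
regular off `v₀` with structure matrices `u v` (`φ s * w j = ∑ i, aeval x (u s i j) * w i`).

`G := fibrePoly u v ∈ K[x][t_s : s ∈ τ]` (leaf `PairCore`) satisfies, for every `α : K` whose fibre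
consists of `n0` distinct places `P i` (an unramified fibre of `x`):

  `G(α; t) = ∏_{i ≠ j} ∑ s, t_s * (φ_s(P i) * ψ_s(P j) - ψ_s(P i) * φ_s(P j))`.

With `τ` the index set of the coordinates of `sig`, `φ (a,b) = φ_a`, `ψ (a,b) = φ_b`, the right-hand
side is `∏_{P ≠ P'} ⟨t, sig(P,P')⟩` over the ordered pairs of the fibre.  Values are stated as in
`Lib/FFNorm`: `f(P) = c` means `f = c ∨ 0 < P.ord (f - c)`.
-/
import Mathlib
import Fermat.Prelude.Def_AlgebraicCurve_Repartitions
import Fermat.Agent.S24.FF.Residue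
import Fermat.Agent.S17.R.LSpace
import Fermat.Agent.S17.R.Eval
import Fermat.Agent.S17.H.Fib.PairCore

set_option autoImplicit false
set_option linter.unusedSectionVars false
set_option linter.unusedVariables false

namespace Fermat.Agent.S17.H.Fib

open AlgebraicCurve Matrix
open Fermat.Agent.S17.R Fermat.Agent.S24.FF

variable {K F : Type*} [Field K] [Field F] [Algebra K F]
variable [IsAlgClosed K] [CharZero K] [Algebra.EssFiniteType K F]

/-- **The divisor of `x - α` on an unramified fibre.**  If `x` is regular off `v₀` with a pole of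
order `n0 > 0` at `v₀`, and `x - α` vanishes at `n0` distinct places `P i`, then the `P i` are
simple zeros, different from `v₀`, and `x - α` has no other zero. -/
theorem fibre_ord (htr : Algebra.trdeg K F = 1) (v₀ : Place K F) {x : F} (hx : x ∈ regOff v₀)
    {n0 : ℕ} (hn0 : 0 < n0) (hord : v₀.ord x = -(n0 : ℤ)) (α : K) (P : Fin n0 → Place K F)
    (hP : Function.Injective P) (hα : ∀ i, 0 < (P i).ord (x - algebraMap K F α)) :
    (∀ i, P i ≠ v₀) ∧ (∀ i, (P i).ord (x - algebraMap K F α) = 1) ∧
      ∀ v : Place K F, v ≠ v₀ → (∀ i, v ≠ P i) → v.ord (x - algebraMap K F α) = 0 := by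
  classical
  have hxne : x ≠ algebraMap K F α := by
    intro h
    rw [h, ord_algebraMap] at hord
    omega
  have hy0 : x - algebraMap K F α ≠ 0 := sub_ne_zero.mpr hxne
  have hx0 : x ≠ 0 := by
    rintro rfl
    rw [Place.ord_zero] at hord
    omega
  have hv0 : v₀.ord (x - algebraMap K F α) = -(n0 : ℤ) := by
    by_cases hα0 : α = 0
    · rw [hα0, map_zero, sub_zero, hord]
    · have hc : algebraMap K F α ≠ 0 := by simpa using hα0
      have hlt : v₀.ord x < v₀.ord (-(algebraMap K F α)) := by
        rw [ord_neg, ord_algebraMap, hord]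
        omega
      have h := ord_add_eq_of_lt v₀ hlt hx0 (neg_ne_zero.mpr hc)
      rw [sub_eq_add_neg, h, hord]
  have hPne : ∀ i, P i ≠ v₀ := by
    intro i h
    have h1 := hα i
    rw [h, hv0] at h1
    omega
  have hreg : ∀ v : Place K F, v ≠ v₀ → 0 ≤ v.ord (x - algebraMap K F α) := fun v hv =>
    ord_nonneg_of_mem v (sub_mem (hx v hv) (v.algebraMap_mem' α))
  -- the expected divisor
  let E : Divisor K F :=
    (∑ i, Finsupp.single (P i) (1 : ℤ)) - (n0 : ℤ) • Finsupp.single v₀ (1 : ℤ)
  have hEP : ∀ i, E (P i) = 1 := by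
    intro i
    show ((∑ j, Finsupp.single (P j) (1 : ℤ)) - (n0 : ℤ) • Finsupp.single v₀ (1 : ℤ)) (P i) = 1
    rw [Finsupp.sub_apply, Finsupp.finsetSum_apply, Finsupp.smul_apply,
      Finsupp.single_eq_of_ne (hPne i), smul_zero, sub_zero,
      Finset.sum_eq_single i, Finsupp.single_eq_same]
    · intro j _ hji
      exact Finsupp.single_eq_of_ne (fun h => hji (hP h).symm)
    · intro h
      exact absurd (Finset.mem_univ i) h
  have hEv0 : E v₀ = -(n0 : ℤ) := by
    show ((∑ j, Finsupp.single (P j) (1 : ℤ)) - (n0 : ℤ) • Finsupp.single v₀ (1 : ℤ)) v₀ = _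
    rw [Finsupp.sub_apply, Finsupp.finsetSum_apply, Finsupp.smul_apply, Finsupp.single_eq_same,
      Finset.sum_eq_zero (fun j _ => Finsupp.single_eq_of_ne (hPne j).symm)]
    simp
  have hEother : ∀ v : Place K F, v ≠ v₀ → (∀ i, v ≠ P i) → E v = 0 := by
    intro v hv hvP
    show ((∑ j, Finsupp.single (P j) (1 : ℤ)) - (n0 : ℤ) • Finsupp.single v₀ (1 : ℤ)) v = 0
    rw [Finsupp.sub_apply, Finsupp.finsetSum_apply, Finsupp.smul_apply,
      Finsupp.single_eq_of_ne hv,
      Finset.sum_eq_zero (fun j _ => Finsupp.single_eq_of_ne (hvP j))]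
    simp
  have hdegE : Divisor.degree E = 0 := by
    show Divisor.degree
      ((∑ j, Finsupp.single (P j) (1 : ℤ)) - (n0 : ℤ) • Finsupp.single v₀ (1 : ℤ)) = 0
    rw [map_sub, map_sum, map_zsmul, Divisor.degree_single, deg_eq_one htr v₀]
    have h1 : ∀ j ∈ (Finset.univ : Finset (Fin n0)),
        Divisor.degree (Finsupp.single (P j) (1 : ℤ)) = 1 := by
      intro j _
      rw [Divisor.degree_single, deg_eq_one htr (P j)]
      simp
    rw [Finset.sum_congr rfl h1]
    simp
  have hle : E ≤ divOf K (x - algebraMap K F α) := by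
    rw [Finsupp.le_def]
    intro v
    rw [divOf_apply htr]
    by_cases hv : v = v₀
    · rw [hv, hEv0, hv0]
    · by_cases hvP : ∃ i, v = P i
      · obtain ⟨i, rfl⟩ := hvP
        rw [hEP i]
        have := hα i
        omega
      · push Not at hvP
        rw [hEother v hv hvP]
        exact hreg v hv
  have hzero : ∀ v : Place K F, v.ord (x - algebraMap K F α) = E v := by
    intro v
    have h1 : 0 ≤ divOf K (x - algebraMap K F α) - E := sub_nonneg.mpr hle
    have h2 : Finsupp.single v ((divOf K (x - algebraMap K F α) - E) v) ≤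
        divOf K (x - algebraMap K F α) - E := by
      rw [Finsupp.le_def]
      intro u
      by_cases hu : u = v
      · rw [hu, Finsupp.single_eq_same]
      · rw [Finsupp.single_eq_of_ne hu]
        exact Finsupp.le_def.mp h1 u
    have h3 := degree_mono htr h2
    rw [Divisor.degree_single, deg_eq_one htr v, map_sub, degree_divOf htr, hdegE] at h3
    have h4 : 0 ≤ (divOf K (x - algebraMap K F α) - E) v := Finsupp.le_def.mp h1 v
    rw [Finsupp.sub_apply, divOf_apply htr] at h3 h4
    simp at h3
    omega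
  exact ⟨hPne, fun i => by rw [hzero, hEP], fun v hv hvP => by rw [hzero, hEother v hv hvP]⟩

/-- Evaluation of the functions regular off `v₀` at a place `P ≠ v₀`. -/
noncomputable def regEval (htr : Algebra.trdeg K F = 1) (v₀ P : Place K F) (hP : P ≠ v₀) :
    ↥(regOff v₀) →ₐ[K] K :=
  (evalAt htr P).comp
    { toFun := fun f => ⟨(f : F), f.2 P hP⟩
      map_one' := rfl
      map_mul' := fun _ _ => rfl
      map_zero' := rfl
      map_add' := fun _ _ => rfl
      commutes' := fun _ => rfl }

theorem regEval_eq_iff (htr : Algebra.trdeg K F = 1) (v₀ P : Place K F) (hP : P ≠ v₀)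
    (f : ↥(regOff v₀)) (c : K) :
    regEval htr v₀ P hP f = c ↔
      ((f : F) = algebraMap K F c ∨ 0 < P.ord ((f : F) - algebraMap K F c)) :=
  evalAt_eq_iff htr P ⟨(f : F), f.2 P hP⟩ c

/-- Structure matrices exist (spanning half of the basis property). -/
theorem exists_structure_matrix (v₀ : Place K F) {x : F} {n0 : ℕ} (w : Fin n0 → F)
    (hw : ∀ i, w i ∈ regOff v₀)
    (hbasis : ∀ f ∈ regOff v₀, ∃! c : Fin n0 → Polynomial K,
      f = ∑ i, Polynomial.aeval x (c i) * w i)
    {τ : Type*} (φ : τ → F) (hφ : ∀ s, φ s ∈ regOff v₀) :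
    ∃ u : τ → Matrix (Fin n0) (Fin n0) (Polynomial K),
      ∀ s j, φ s * w j = ∑ i, Polynomial.aeval x (u s i j) * w i := by
  have h : ∀ s j, ∃ c : Fin n0 → Polynomial K,
      φ s * w j = ∑ i, Polynomial.aeval x (c i) * w i :=
    fun s j => (hbasis _ (mul_mem (hφ s) (hw j))).exists
  choose c hc using h
  exact ⟨fun s i j => c s j i, hc⟩

/-- **D4b.** The value of the fibre polynomial at an unramified fibre. -/
theorem map_eval_fibrePoly (htr : Algebra.trdeg K F = 1) (v₀ : Place K F) {x : F}
    (hx : x ∈ regOff v₀) {n0 : ℕ} (hn0 : 0 < n0) (hord : v₀.ord x = -(n0 : ℤ))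
    (w : Fin n0 → F) (hw : ∀ i, w i ∈ regOff v₀)
    (hbasis : ∀ f ∈ regOff v₀, ∃! c : Fin n0 → Polynomial K,
      f = ∑ i, Polynomial.aeval x (c i) * w i)
    {τ : Type*} [Fintype τ] (φ ψ : τ → F) (hφ : ∀ s, φ s ∈ regOff v₀)
    (hψ : ∀ s, ψ s ∈ regOff v₀)
    (u v : τ → Matrix (Fin n0) (Fin n0) (Polynomial K))
    (hu : ∀ s j, φ s * w j = ∑ i, Polynomial.aeval x (u s i j) * w i)
    (hv : ∀ s j, ψ s * w j = ∑ i, Polynomial.aeval x (v s i j) * w i)
    (α : K) (P : Fin n0 → Place K F) (hP : Function.Injective P)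
    (hα : ∀ i, 0 < (P i).ord (x - algebraMap K F α))
    (d e : τ → Fin n0 → K)
    (hd : ∀ s i, φ s = algebraMap K F (d s i) ∨ 0 < (P i).ord (φ s - algebraMap K F (d s i)))
    (he : ∀ s i, ψ s = algebraMap K F (e s i) ∨ 0 < (P i).ord (ψ s - algebraMap K F (e s i))) :
    MvPolynomial.map (Polynomial.evalRingHom α) (fibrePoly u v) =
      ∏ q ∈ (Finset.univ : Finset (Fin n0)).offDiag, pairForm d e q := by
  classical
  obtain ⟨hPne, hP1, hP0⟩ := fibre_ord htr v₀ hx hn0 hord α P hP hα
  have hxne : x ≠ algebraMap K F α := by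
    intro h
    rw [h, ord_algebraMap] at hord
    omega
  have hy0 : x - algebraMap K F α ≠ 0 := sub_ne_zero.mpr hxne
  -- the evaluations
  let χ : Fin n0 → (↥(regOff v₀) →ₐ[K] K) := fun i => regEval htr v₀ (P i) (hPne i)
  let xB : ↥(regOff v₀) := ⟨x, hx⟩
  let wB : Fin n0 → ↥(regOff v₀) := fun j => ⟨w j, hw j⟩
  have hχx : ∀ i, χ i xB = α := fun i =>
    (regEval_eq_iff htr v₀ (P i) (hPne i) xB α).mpr (Or.inr (hα i))
  have hχaeval : ∀ i (p : Polynomial K), χ i (Polynomial.aeval xB p) = p.eval α := by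
    intro i p
    rw [← Polynomial.aeval_algHom_apply, hχx, Polynomial.coe_aeval_eq_eval]
  let S : Matrix (Fin n0) (Fin n0) K := fun i j => χ i (wB j)
  -- the key identity, for any family with structure matrices and values
  have key : ∀ (θ : τ → F) (hθ : ∀ s, θ s ∈ regOff v₀)
      (m : τ → Matrix (Fin n0) (Fin n0) (Polynomial K))
      (hm : ∀ s j, θ s * w j = ∑ i, Polynomial.aeval x (m s i j) * w i)
      (c : τ → Fin n0 → K)
      (hc : ∀ s i, θ s = algebraMap K F (c s i) ∨ 0 < (P i).ord (θ s - algebraMap K F (c s i))),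
      ∀ s, S * (m s).map (Polynomial.evalRingHom α) = diagonal (c s) * S := by
    intro θ hθ m hm c hc s
    ext i j
    have hB : (⟨θ s, hθ s⟩ : ↥(regOff v₀)) * wB j =
        ∑ l, Polynomial.aeval xB (m s l j) * wB l := by
      apply Subtype.ext
      rw [Subalgebra.coe_mul, AddSubmonoidClass.coe_finsetSum]
      simp only [Subalgebra.coe_mul, Polynomial.aeval_subalgebra_coe]
      exact hm s j
    have hχθ : χ i ⟨θ s, hθ s⟩ = c s i :=
      (regEval_eq_iff htr v₀ (P i) (hPne i) ⟨θ s, hθ s⟩ (c s i)).mpr (hc s i)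
    have h1 := congrArg (χ i) hB
    rw [map_mul, map_sum, hχθ] at h1
    simp only [map_mul, hχaeval] at h1
    rw [Matrix.mul_apply, Matrix.diagonal_mul]
    show ∑ l, χ i (wB l) * ((m s).map (Polynomial.evalRingHom α)) l j = c s i * χ i (wB j)
    rw [h1]
    refine Finset.sum_congr rfl fun l _ => ?_
    rw [Matrix.map_apply, Polynomial.coe_evalRingHom, mul_comm]
  -- `S` is invertible
  have hdet : S.det ≠ 0 := by
    intro hdet0
    obtain ⟨c, hc0, hc⟩ := Matrix.exists_mulVec_eq_zero_iff.mpr hdet0
    let f : ↥(regOff v₀) := ∑ j, c j • wB j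
    have hχf : ∀ i, χ i f = 0 := by
      intro i
      have h : ∑ j, S i j * c j = 0 := by
        have h' := congrFun hc i
        simpa [Matrix.mulVec, dotProduct] using h'
      show χ i (∑ j, c j • wB j) = 0
      rw [map_sum]
      simp only [map_smul, smul_eq_mul]
      rw [← h]
      exact Finset.sum_congr rfl fun j _ => mul_comm _ _
    have hexp : (f : F) = ∑ j, Polynomial.aeval x (Polynomial.C (c j)) * w j := by
      show ((∑ j, c j • wB j : ↥(regOff v₀)) : F) = _
      rw [AddSubmonoidClass.coe_finsetSum]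
      refine Finset.sum_congr rfl fun j _ => ?_
      rw [Polynomial.aeval_C, Subalgebra.coe_smul, Algebra.smul_def]
    have hf0 : (f : F) = 0 := by
      by_contra hne
      have hg : (f : F) / (x - algebraMap K F α) ∈ regOff v₀ := by
        intro v hv
        have hgne : (f : F) / (x - algebraMap K F α) ≠ 0 := div_ne_zero hne hy0
        rw [← ord_nonneg_iff v hgne, div_eq_mul_inv, v.ord_mul hne (inv_ne_zero hy0), v.ord_inv]
        by_cases hvP : ∃ i, v = P i
        · obtain ⟨i, rfl⟩ := hvP
          rw [hP1 i]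
          have hpos : 0 < (P i).ord (f : F) := by
            rcases (regEval_eq_iff htr v₀ (P i) (hPne i) f 0).mp (hχf i) with h | h
            · rw [map_zero] at h
              exact absurd h hne
            · rwa [map_zero, sub_zero] at h
          omega
        · push Not at hvP
          rw [hP0 v hv hvP]
          have := ord_nonneg_of_mem v (f.2 v hv)
          omega
      obtain ⟨cg, hcg, -⟩ := hbasis _ hg
      have h2 : (f : F) =
          ∑ j, Polynomial.aeval x ((Polynomial.X - Polynomial.C α) * cg j) * w j := by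
        have h3 : (f : F) = (x - algebraMap K F α) * ((f : F) / (x - algebraMap K F α)) := by
          field_simp
        rw [h3, hcg, Finset.mul_sum]
        refine Finset.sum_congr rfl fun j _ => ?_
        rw [map_mul, map_sub, Polynomial.aeval_X, Polynomial.aeval_C, mul_assoc]
      have huniq := (hbasis (f : F) f.2).unique hexp h2
      have hcj : ∀ j, c j = 0 := by
        intro j
        have hj : Polynomial.C (c j) = (Polynomial.X - Polynomial.C α) * cg j :=
          congrFun huniq j
        by_cases hz : cg j = 0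
        · rw [hz, mul_zero] at hj
          exact Polynomial.C_eq_zero.mp hj
        · have hdeg := congrArg Polynomial.natDegree hj
          rw [Polynomial.natDegree_C,
            Polynomial.natDegree_mul (Polynomial.X_sub_C_ne_zero α) hz,
            Polynomial.natDegree_X_sub_C] at hdeg
          omega
      exact hc0 (funext hcj)
    have h1 : (0 : F) = ∑ j, Polynomial.aeval x (Polynomial.C (c j)) * w j := by
      rw [← hf0, hexp]
    have h2 : (0 : F) = ∑ j, Polynomial.aeval x ((0 : Fin n0 → Polynomial K) j) * w j := by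
      simp
    have h3 := (hbasis 0 (zero_mem _)).unique h1 h2
    exact hc0 (funext fun j => Polynomial.C_eq_zero.mp (congrFun h3 j))
  obtain ⟨U, hU⟩ := (Matrix.isUnit_iff_isUnit_det S).mpr (isUnit_iff_ne_zero.mpr hdet)
  refine map_fibrePoly_eq_prod (Polynomial.evalRingHom α) u v U d e ?_ ?_
  · intro s
    rw [hU]
    exact key φ hφ u hu d hd s
  · intro s
    rw [hU]
    exact key ψ hψ v hv e he s

/-- **D4b, existential form.** There is a polynomial `G ∈ K[x][t]` whose value at every `α` with
an unramified fibre `P` is the product over the ordered pairs of distinct points of the fibre of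
the linear forms `∑ s, t_s * (φ_s(P i) ψ_s(P j) - ψ_s(P i) φ_s(P j))`. -/
theorem exists_fibrePoly (htr : Algebra.trdeg K F = 1) (v₀ : Place K F) {x : F}
    (hx : x ∈ regOff v₀) {n0 : ℕ} (hn0 : 0 < n0) (hord : v₀.ord x = -(n0 : ℤ))
    (w : Fin n0 → F) (hw : ∀ i, w i ∈ regOff v₀)
    (hbasis : ∀ f ∈ regOff v₀, ∃! c : Fin n0 → Polynomial K,
      f = ∑ i, Polynomial.aeval x (c i) * w i)
    {τ : Type*} [Fintype τ] (φ ψ : τ → F) (hφ : ∀ s, φ s ∈ regOff v₀)
    (hψ : ∀ s, ψ s ∈ regOff v₀) :
    ∃ G : MvPolynomial τ (Polynomial K),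
      ∀ (α : K) (P : Fin n0 → Place K F), Function.Injective P →
        (∀ i, 0 < (P i).ord (x - algebraMap K F α)) →
        ∀ d e : τ → Fin n0 → K,
          (∀ s i, φ s = algebraMap K F (d s i) ∨
            0 < (P i).ord (φ s - algebraMap K F (d s i))) →
          (∀ s i, ψ s = algebraMap K F (e s i) ∨
            0 < (P i).ord (ψ s - algebraMap K F (e s i))) →
          MvPolynomial.map (Polynomial.evalRingHom α) G =
            ∏ q ∈ (Finset.univ : Finset (Fin n0)).offDiag, pairForm d e q := by
  obtain ⟨u, hu⟩ := exists_structure_matrix v₀ w hw hbasis φ hφ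
  obtain ⟨v, hv⟩ := exists_structure_matrix v₀ w hw hbasis ψ hψ
  exact ⟨fibrePoly u v, fun α P hP hα d e hd he =>
    map_eval_fibrePoly htr v₀ hx hn0 hord w hw hbasis φ ψ hφ hψ u v hu hv α P hP hα d e hd he⟩

end Fermat.Agent.S17.H.Fib
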