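import Fermat.Agent.S17.R.Gaps
import Fermat.Agent.S17.R.Apery
import Fermat.Agent.S17.H.Fib.FibreValue
import Fermat.Agent.S17.H.Glob.WeightedDet

/-!
# Program MW (S17), strand H, block D4 (adjugate route): the curve data of a fibre

`F` a function field of one variable over an algebraically closed field `K` of characteristic
zero, `v₀` a place, `x` regular off `v₀` with a pole of order `n0 > 0` at `v₀`.

* `regPoleFilt v₀ e` : the functions regular off `v₀` of pole order `≤ e` at `v₀`, a multiplicative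
  filtration of `↥(regOff v₀)`;
* `det_regEval_ne_zero` : the values of a `K[x]`-basis of `regOff v₀` at the `n0` points of an
  unramified fibre form an invertible matrix;
* `exists_apery_data` : the Apéry basis with `w 0 = 1`, `2 ∑ ν = n0 (2 g + n0 - 1)` and
  coordinates with degree control;
* `exists_fibre_separator` : the points of an unramified fibre are separated by functions of
  bounded pole order.
-/

set_option autoImplicit false

namespace Fermat.Agent.S17.H.Fib

open AlgebraicCurve Matrix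
open Fermat.Agent.S17.R Fermat.Agent.S24.FF
open Fermat.Agent.S17.H.Glob.WeightedDet

variable {K F : Type*} [Field K] [Field F] [Algebra K F]

/-- The pole-order filtration of the ring of functions regular off `v₀`: `regPoleFilt v₀ e` is the
group of the functions of `L(e·v₀)`. -/
def regPoleFilt (v₀ : Place K F) (e : ℤ) : AddSubgroup ↥(regOff v₀) where
  carrier := {f | (f : F) ∈ riemannRochSpace (e • Finsupp.single v₀ (1 : ℤ))}
  zero_mem' := by
    show ((0 : ↥(regOff v₀)) : F) ∈ riemannRochSpace (e • Finsupp.single v₀ (1 : ℤ))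
    rw [ZeroMemClass.coe_zero]
    exact Submodule.zero_mem _
  add_mem' := by
    intro a b ha hb
    show ((a + b : ↥(regOff v₀)) : F) ∈ riemannRochSpace (e • Finsupp.single v₀ (1 : ℤ))
    rw [Subalgebra.coe_add]
    exact Submodule.add_mem _ ha hb
  neg_mem' := by
    intro a ha
    show ((-a : ↥(regOff v₀)) : F) ∈ riemannRochSpace (e • Finsupp.single v₀ (1 : ℤ))
    rw [Subalgebra.coe_neg]
    exact Submodule.neg_mem _ ha

theorem mem_regPoleFilt_iff (v₀ : Place K F) (e : ℤ) (f : ↥(regOff v₀)) :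
    f ∈ regPoleFilt v₀ e ↔ (f : F) ∈ riemannRochSpace (e • Finsupp.single v₀ (1 : ℤ)) := Iff.rfl

theorem isMulFilt_regPoleFilt (v₀ : Place K F) : IsMulFilt (regPoleFilt v₀) where
  one_mem := by
    rw [mem_regPoleFilt_iff, OneMemClass.coe_one]
    have h := Gaps.one_mem_Ln v₀ 0
    rwa [Nat.cast_zero] at h
  mul_mem := by
    intro d e a b ha hb
    rw [mem_regPoleFilt_iff] at ha hb ⊢
    rw [Subalgebra.coe_mul]
    by_cases ha0 : (a : F) = 0
    · rw [ha0, zero_mul]
      exact Submodule.zero_mem _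
    by_cases hb0 : (b : F) = 0
    · rw [hb0, mul_zero]
      exact Submodule.zero_mem _
    rw [Gaps.mem_Ln_iff v₀ _ ha0] at ha
    rw [Gaps.mem_Ln_iff v₀ _ hb0] at hb
    rw [Gaps.mem_Ln_iff v₀ _ (mul_ne_zero ha0 hb0)]
    refine ⟨?_, fun v hv => ?_⟩
    · rw [v₀.ord_mul ha0 hb0]
      have h1 := ha.1
      have h2 := hb.1
      omega
    · rw [v.ord_mul ha0 hb0]
      have h1 := ha.2 v hv
      have h2 := hb.2 v hv
      omega

theorem monotone_regPoleFilt (v₀ : Place K F) : Monotone (regPoleFilt v₀) :=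
  fun _ _ h _ hf => Gaps.Ln_mono v₀ h hf

variable [IsAlgClosed K] [CharZero K] [Algebra.EssFiniteType K F]

/-- The values of a `K[x]`-basis of the functions regular off `v₀` at the points of an unramified
fibre of `x` form an invertible matrix. -/
theorem det_regEval_ne_zero (htr : Algebra.trdeg K F = 1) (v₀ : Place K F) {x : F}
    (hx : x ∈ regOff v₀) {n0 : ℕ} (hn0 : 0 < n0) (hord : v₀.ord x = -(n0 : ℤ))
    (w : Fin n0 → F) (hw : ∀ i, w i ∈ regOff v₀)
    (hbasis : ∀ f ∈ regOff v₀, ∃! c : Fin n0 → Polynomial K,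
      f = ∑ i, Polynomial.aeval x (c i) * w i)
    (α : K) (P : Fin n0 → Place K F) (hP : Function.Injective P)
    (hα : ∀ i, 0 < (P i).ord (x - algebraMap K F α)) (hPne : ∀ i, P i ≠ v₀) :
    (Matrix.of fun i j => regEval htr v₀ (P i) (hPne i) ⟨w j, hw j⟩).det ≠ 0 := by
  classical
  obtain ⟨-, hP1, hP0⟩ := fibre_ord htr v₀ hx hn0 hord α P hP hα
  have hxne : x ≠ algebraMap K F α := by
    intro h
    rw [h, ord_algebraMap] at hord
    omega
  have hy0 : x - algebraMap K F α ≠ 0 := sub_ne_zero.mpr hxne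
  let χ : Fin n0 → (↥(regOff v₀) →ₐ[K] K) := fun i => regEval htr v₀ (P i) (hPne i)
  let wB : Fin n0 → ↥(regOff v₀) := fun j => ⟨w j, hw j⟩
  intro hdet0
  obtain ⟨c, hc0, hc⟩ := Matrix.exists_mulVec_eq_zero_iff.mpr hdet0
  let f : ↥(regOff v₀) := ∑ j, c j • wB j
  have hχf : ∀ i, χ i f = 0 := by
    intro i
    have h : ∑ j, χ i (wB j) * c j = 0 := by
      have h' := congrFun hc i
      simpa [Matrix.mulVec, dotProduct] using h'
    show χ i (∑ j, c j • wB j) = 0
    rw [map_sum]
    simp only [map_smul, smul_eq_mul]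
    rw [← h]
    exact Finset.sum_congr rfl fun j _ => mul_comm _ _
  have hexp : (f : F) = ∑ j, Polynomial.aeval x (Polynomial.C (c j)) * w j := by
    show ((∑ j, c j • wB j : ↥(regOff v₀)) : F) = _
    rw [AddSubmonoidClass.coe_finsetSum]
    refine Finset.sum_congr rfl fun j _ => ?_
    rw [Polynomial.aeval_C, Subalgebra.coe_smul, Algebra.smul_def]
  have hf0 : (f : F) = 0 := by
    by_contra hne
    have hg : (f : F) / (x - algebraMap K F α) ∈ regOff v₀ := by
      intro v hv
      have hgne : (f : F) / (x - algebraMap K F α) ≠ 0 := div_ne_zero hne hy0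
      rw [← ord_nonneg_iff v hgne, div_eq_mul_inv, v.ord_mul hne (inv_ne_zero hy0), v.ord_inv]
      by_cases hvP : ∃ i, v = P i
      · obtain ⟨i, rfl⟩ := hvP
        rw [hP1 i]
        have hpos : 0 < (P i).ord (f : F) := by
          rcases (regEval_eq_iff htr v₀ (P i) (hPne i) f 0).mp (hχf i) with h | h
          · rw [map_zero] at h
            exact absurd h hne
          · rwa [map_zero, sub_zero] at h
        omega
      · push Not at hvP
        rw [hP0 v hv hvP]
        have := ord_nonneg_of_mem v (f.2 v hv)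
        omega
    obtain ⟨cg, hcg, -⟩ := hbasis _ hg
    have h2 : (f : F) =
        ∑ j, Polynomial.aeval x ((Polynomial.X - Polynomial.C α) * cg j) * w j := by
      have h3 : (f : F) = (x - algebraMap K F α) * ((f : F) / (x - algebraMap K F α)) := by
        field_simp
      rw [h3, hcg, Finset.mul_sum]
      refine Finset.sum_congr rfl fun j _ => ?_
      rw [map_mul, map_sub, Polynomial.aeval_X, Polynomial.aeval_C, mul_assoc]
    have huniq := (hbasis (f : F) f.2).unique hexp h2
    have hcj : ∀ j, c j = 0 := by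
      intro j
      have hj : Polynomial.C (c j) = (Polynomial.X - Polynomial.C α) * cg j :=
        congrFun huniq j
      by_cases hz : cg j = 0
      · rw [hz, mul_zero] at hj
        exact Polynomial.C_eq_zero.mp hj
      · have hdeg := congrArg Polynomial.natDegree hj
        rw [Polynomial.natDegree_C,
          Polynomial.natDegree_mul (Polynomial.X_sub_C_ne_zero α) hz,
          Polynomial.natDegree_X_sub_C] at hdeg
        omega
    exact hc0 (funext hcj)
  have h1 : (0 : F) = ∑ j, Polynomial.aeval x (Polynomial.C (c j)) * w j := by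
    rw [← hf0, hexp]
  have h2 : (0 : F) = ∑ j, Polynomial.aeval x ((0 : Fin n0 → Polynomial K) j) * w j := by
    simp
  have h3 := (hbasis 0 (zero_mem _)).unique h1 h2
  exact hc0 (funext fun j => Polynomial.C_eq_zero.mp (congrFun h3 j))

/-- The Apéry data of `(v₀, x)` in the shape consumed below: a `K[x]`-basis `w` of the functions
regular off `v₀` with `w 0 = 1`, pole orders `ν`, `2 ∑ ν = n0 (2 g + n0 - 1)`, and coordinates
with degree control. -/
theorem exists_apery_data (htr : Algebra.trdeg K F = 1) (v₀ : Place K F) {x : F}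
    (hx : x ∈ regOff v₀) (n : ℕ) (hord : v₀.ord x = -((n + 1 : ℕ) : ℤ)) :
    ∃ (w : Fin (n + 1) → F) (ν : Fin (n + 1) → ℕ),
      (∀ i, w i ∈ riemannRochSpace ((ν i : ℤ) • Finsupp.single v₀ (1 : ℤ))) ∧
      w 0 = 1 ∧ ν 0 = 0 ∧
      2 * ∑ i, ν i = (n + 1) * (2 * gR K F + n) ∧
      (∀ (m : ℕ) (f : F), f ∈ riemannRochSpace ((m : ℤ) • Finsupp.single v₀ (1 : ℤ)) →
        ∃ p : Fin (n + 1) → Polynomial K, f = ∑ i, Polynomial.aeval x (p i) * w i ∧
          ∀ i, p i ≠ 0 → (p i).natDegree * (n + 1) + ν i ≤ m) ∧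
      (∀ f ∈ regOff v₀, ∃! c : Fin (n + 1) → Polynomial K,
        f = ∑ i, Polynomial.aeval x (c i) * w i) := by
  have hxL : x ∈ riemannRochSpace (((n + 1 : ℕ) : ℤ) • Finsupp.single v₀ (1 : ℤ)) :=
    Apery.mem_L_of_mem_regOff hx _ (Or.inr (le_of_eq hord.symm))
  obtain ⟨w, ν, hwL, hwo, hνmod, hone, hsum, hspan, hfree⟩ :=
    exists_apery htr v₀ x (n + 1) (Nat.succ_pos n) hxL hord
  have hw0 : w 0 = 1 := hone
  have hν0 : ν 0 = 0 := by
    have h := hwo 0
    rw [hw0, Place.ord_one] at h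
    omega
  refine ⟨w, ν, hwL, hw0, hν0, ?_, hspan, ?_⟩
  · have h1 : ∀ i : Fin (n + 1), ν i = (n + 1) * (ν i / (n + 1)) + (i : ℕ) := fun i => by
      have h := Nat.div_add_mod (ν i) (n + 1)
      rw [hνmod i] at h
      exact h.symm
    have h2 : ∑ i : Fin (n + 1), ν i = (n + 1) * gR K F + ∑ i : Fin (n + 1), (i : ℕ) := by
      rw [← hsum, Finset.mul_sum, ← Finset.sum_add_distrib]
      exact Finset.sum_congr rfl fun i _ => h1 i
    have h3 : (∑ i : Fin (n + 1), (i : ℕ)) * 2 = (n + 1) * n := by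
      rw [Fin.sum_univ_eq_sum_range (fun i => i) (n + 1), Finset.sum_range_id_mul_two]
      simp
    have h4 : (n + 1) * (2 * gR K F + n) = 2 * ((n + 1) * gR K F) + (n + 1) * n := by ring
    rw [h2, h4]
    omega
  · intro f hf
    obtain ⟨m, hm⟩ := (Gaps.regular_iff v₀).mp hf
    obtain ⟨p, hp, -⟩ := hspan m f hm
    refine ⟨p, hp, fun q hq => ?_⟩
    have hzero : ∑ i, Polynomial.aeval x ((q - p) i) * w i = 0 := by
      rw [Apery.sum_sub, ← hq, ← hp, sub_self]
    exact sub_eq_zero.mp (hfree _ hzero)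

/-- **FIB separator.**  The points of an unramified fibre of `x` are separated by functions of
bounded pole order at `v₀`. -/
theorem exists_fibre_separator (htr : Algebra.trdeg K F = 1) (v₀ : Place K F) {x : F}
    (hx : x ∈ regOff v₀) {n0 : ℕ} (hn0 : 0 < n0) (hord : v₀.ord x = -(n0 : ℤ)) :
    ∃ N₀ : ℕ, ∀ (α : K) (P : Fin n0 → Place K F), Function.Injective P →
      (∀ i, 0 < (P i).ord (x - algebraMap K F α)) →
      ∀ i j, i ≠ j → ∃ f : F, f ∈ riemannRochSpace ((N₀ : ℤ) • Finsupp.single v₀ (1 : ℤ)) ∧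
        ∀ c : K, (f = algebraMap K F c ∨ 0 < (P i).ord (f - algebraMap K F c)) →
          ¬ (f = algebraMap K F c ∨ 0 < (P j).ord (f - algebraMap K F c)) := by
  classical
  obtain ⟨n, rfl⟩ : ∃ n, n0 = n + 1 := ⟨n0 - 1, by omega⟩
  obtain ⟨w, ν, hwL, -, -, -, -, hbasis⟩ := exists_apery_data htr v₀ hx n hord
  have hwR : ∀ i, w i ∈ regOff v₀ := fun i => Apery.mem_regOff_of_mem_L (hwL i)
  refine ⟨∑ i, ν i, fun α P hP hα i j hij => ?_⟩
  obtain ⟨hPne, -, -⟩ := fibre_ord htr v₀ hx (Nat.succ_pos n) hord α P hP hα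
  have hV := det_regEval_ne_zero htr v₀ hx (Nat.succ_pos n) hord w hwR hbasis α P hP hα hPne
  have hex : ∃ k, regEval htr v₀ (P i) (hPne i) ⟨w k, hwR k⟩ ≠
      regEval htr v₀ (P j) (hPne j) ⟨w k, hwR k⟩ := by
    by_contra hall
    push Not at hall
    exact hV (Matrix.det_zero_of_row_eq hij (funext fun k => hall k))
  obtain ⟨k, hk⟩ := hex
  refine ⟨w k, ?_, fun c hc hc' => hk ?_⟩
  · have hle : ((ν k : ℕ) : ℤ) ≤ ((∑ i, ν i : ℕ) : ℤ) := by
      exact_mod_cast Finset.single_le_sum (fun i _ => Nat.zero_le (ν i)) (Finset.mem_univ k)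
    exact Gaps.Ln_mono v₀ hle (hwL k)
  · rw [(regEval_eq_iff htr v₀ (P i) (hPne i) ⟨w k, hwR k⟩ c).mpr hc,
      (regEval_eq_iff htr v₀ (P j) (hPne j) ⟨w k, hwR k⟩ c).mpr hc']

end Fermat.Agent.S17.H.Fib
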