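/-
PROGRAM MW (S17), strand H, block D4 (adjugate form), instance glue for leaf FIB (helper178).

`F / K` a function field of one variable, `v₀` a place, `x : ↥(regOff v₀)` with a pole of order
`n0` at `v₀`, `w : Fin n0 → ↥(regOff v₀)` a `K[x]`-basis of `↥(regOff v₀)` (span + freeness, as
delivered by `R.AperyReg.exists_apery_reg`), `P : Fin n0 → Place K F` an unramified fibre of `x`
over `α`.

* `det_regEval_ne_zero` : the matrix `V = (w k (P i))` of values is invertible
  (hypothesis `hV` of `FibreCore.fibre_identity_formal`);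
* `regEval_aeval`, `regEval_of_ord_pos` : the evaluations on polynomials in `x`;
* `exists_fibre_separator` : the points of an unramified fibre are separated by functions of
  bounded pole order at `v₀` (the rows of `V` are distinct).
-/
import Mathlib
import Fermat.Agent.S17.R.AperyReg
import Fermat.Agent.S17.H.Fib.FibreValue

set_option autoImplicit false
set_option linter.unusedSectionVars false
set_option linter.unusedVariables false

namespace Fermat.Agent.S17.H.Fib.FibreDet

open AlgebraicCurve Matrix Polynomial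
open Fermat.Agent.S17.R Fermat.Agent.S24.FF
open Fermat.Agent.S17.H.Fib

variable {K F : Type*} [Field K] [Field F] [Algebra K F]
variable [IsAlgClosed K] [CharZero K] [Algebra.EssFiniteType K F]

theorem regEval_of_ord_pos (htr : Algebra.trdeg K F = 1) (v₀ P : Place K F) (hP : P ≠ v₀)
    (f : ↥(regOff v₀)) (c : K) (h : 0 < P.ord ((f : F) - algebraMap K F c)) :
    regEval htr v₀ P hP f = c :=
  (regEval_eq_iff htr v₀ P hP f c).mpr (Or.inr h)

theorem regEval_aeval (htr : Algebra.trdeg K F = 1) (v₀ P : Place K F) (hP : P ≠ v₀)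
    (x : ↥(regOff v₀)) (p : K[X]) :
    regEval htr v₀ P hP (aeval x p) = p.eval (regEval htr v₀ P hP x) := by
  rw [← Polynomial.aeval_algHom_apply, Polynomial.coe_aeval_eq_eval]

/-- **The matrix of values of a `K[x]`-basis of `↥(regOff v₀)` on an unramified fibre of `x` is
invertible.** -/
theorem det_regEval_ne_zero (htr : Algebra.trdeg K F = 1) (v₀ : Place K F) (x : ↥(regOff v₀))
    {n0 : ℕ} (hn0 : 0 < n0) (hord : v₀.ord (x : F) = -(n0 : ℤ)) (w : Fin n0 → ↥(regOff v₀))
    (hspan : ∀ f : ↥(regOff v₀), ∃ p : Fin n0 → K[X], f = ∑ i, aeval x (p i) * w i)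
    (hfree : ∀ p : Fin n0 → K[X], ∑ i, aeval x (p i) * w i = 0 → p = 0)
    (α : K) (P : Fin n0 → Place K F) (hP : Function.Injective P)
    (hα : ∀ i, 0 < (P i).ord ((x : F) - algebraMap K F α)) (hPne : ∀ i, P i ≠ v₀) :
    (Matrix.of fun i k => regEval htr v₀ (P i) (hPne i) (w k)).det ≠ 0 := by
  classical
  obtain ⟨-, hP1, hP0⟩ := fibre_ord htr v₀ x.2 hn0 hord α P hP hα
  have hxne : (x : F) ≠ algebraMap K F α := by
    intro h
    rw [h, ord_algebraMap] at hord
    omega
  have hy0 : (x : F) - algebraMap K F α ≠ 0 := sub_ne_zero.mpr hxne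
  intro hdet0
  obtain ⟨c, hc0, hc⟩ := Matrix.exists_mulVec_eq_zero_iff.mpr hdet0
  obtain ⟨f, hfdef⟩ : ∃ f : ↥(regOff v₀), f = ∑ j, aeval x (C (c j)) * w j := ⟨_, rfl⟩
  have hχf : ∀ i, regEval htr v₀ (P i) (hPne i) f = 0 := by
    intro i
    have h' : ∑ j, regEval htr v₀ (P i) (hPne i) (w j) * c j = 0 := by
      have h'' := congrFun hc i
      simpa [Matrix.mulVec, dotProduct] using h''
    rw [hfdef, map_sum, ← h']
    refine Finset.sum_congr rfl fun j _ => ?_
    rw [map_mul, aeval_C, AlgHom.commutes, mul_comm]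
    rfl
  have hfac : ∃ q : Fin n0 → K[X], ∀ j, C (c j) = (X - C α) * q j := by
    by_cases hne : (f : F) = 0
    · refine ⟨fun _ => 0, fun j => ?_⟩
      have hf0 : ∑ j, aeval x (C (c j)) * w j = 0 := by
        rw [← hfdef]
        exact Subtype.ext hne
      have h1 := congrFun (hfree (fun j => C (c j)) hf0) j
      rw [mul_zero]
      exact h1
    · have hg : (f : F) / ((x : F) - algebraMap K F α) ∈ regOff v₀ := by
        intro v hv
        have hgne : (f : F) / ((x : F) - algebraMap K F α) ≠ 0 := div_ne_zero hne hy0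
        rw [← ord_nonneg_iff v hgne, div_eq_mul_inv, v.ord_mul hne (inv_ne_zero hy0), v.ord_inv]
        by_cases hvP : ∃ i, v = P i
        · obtain ⟨i, rfl⟩ := hvP
          rw [hP1 i]
          have hpos : 0 < (P i).ord (f : F) := by
            rcases (regEval_eq_iff htr v₀ (P i) (hPne i) f 0).mp (hχf i) with h | h
            · rw [map_zero] at h
              exact absurd h hne
            · rwa [map_zero, sub_zero] at h
          omega
        · push Not at hvP
          rw [hP0 v hv hvP]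
          have := ord_nonneg_of_mem v (f.2 v hv)
          omega
      obtain ⟨q, hq⟩ := hspan ⟨_, hg⟩
      refine ⟨q, fun j => ?_⟩
      have h3 : f = (x - algebraMap K ↥(regOff v₀) α) *
          (⟨(f : F) / ((x : F) - algebraMap K F α), hg⟩ : ↥(regOff v₀)) := by
        apply Subtype.ext
        rw [Subalgebra.coe_mul, Subalgebra.coe_sub, Subalgebra.coe_algebraMap]
        field_simp
      have h4 : ∀ j, aeval x (C (c j) - (X - C α) * q j) * w j =
          aeval x (C (c j)) * w j -
            (x - algebraMap K ↥(regOff v₀) α) * (aeval x (q j) * w j) := by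
        intro j
        simp only [map_sub, map_mul, aeval_X, aeval_C]
        ring
      have h2 : ∑ j, aeval x (C (c j) - (X - C α) * q j) * w j = 0 := by
        rw [Finset.sum_congr rfl (fun j _ => h4 j), Finset.sum_sub_distrib, ← Finset.mul_sum,
          ← hq, ← h3, ← hfdef]
        exact sub_self _
      exact sub_eq_zero.mp (congrFun (hfree _ h2) j)
  obtain ⟨q, hq⟩ := hfac
  refine hc0 (funext fun j => ?_)
  by_cases hz : q j = 0
  · have h1 := hq j
    rw [hz, mul_zero] at h1
    exact Polynomial.C_eq_zero.mp h1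
  · have hdeg := congrArg Polynomial.natDegree (hq j)
    rw [Polynomial.natDegree_C, Polynomial.natDegree_mul (Polynomial.X_sub_C_ne_zero α) hz,
      Polynomial.natDegree_X_sub_C] at hdeg
    omega

/-- **FIB separator**: the points of an unramified fibre of `x` are separated by functions of
bounded pole order at `v₀`. -/
theorem exists_fibre_separator (htr : Algebra.trdeg K F = 1) (v₀ : Place K F) {x : F}
    (hx : x ∈ regOff v₀) {n0 : ℕ} (hn0 : 0 < n0) (hord : v₀.ord x = -(n0 : ℤ)) :
    ∃ N₀ : ℕ, ∀ (α : K) (P : Fin n0 → Place K F), Function.Injective P →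
      (∀ i, 0 < (P i).ord (x - algebraMap K F α)) →
      ∀ i j, i ≠ j → ∃ f : F, f ∈ riemannRochSpace ((N₀ : ℤ) • Finsupp.single v₀ (1 : ℤ)) ∧
        ∀ c : K, (f = algebraMap K F c ∨ 0 < (P i).ord (f - algebraMap K F c)) →
          ¬ (f = algebraMap K F c ∨ 0 < (P j).ord (f - algebraMap K F c)) := by
  classical
  obtain ⟨n, rfl⟩ : ∃ n, n0 = n + 1 := ⟨n0 - 1, by omega⟩
  have hord' : v₀.ord ((⟨x, hx⟩ : ↥(regOff v₀)) : F) = -((n : ℤ) + 1) := by
    rw [hord]
    push_cast
    ring
  obtain ⟨w, ν, hw0, hν0, hνnn, hwL, hwo, hxF, hrep, hfree, hsum⟩ :=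
    AperyReg.exists_apery_reg htr v₀ ⟨x, hx⟩ n hord'
  refine ⟨∑ k, (ν k).toNat, fun α P hP hα i j hij => ?_⟩
  obtain ⟨hPne, -, -⟩ := fibre_ord htr v₀ hx hn0 hord α P hP hα
  have hspan : ∀ f : ↥(regOff v₀), ∃ p : Fin (n + 1) → K[X],
      f = ∑ i, aeval (⟨x, hx⟩ : ↥(regOff v₀)) (p i) * w i := by
    intro f
    obtain ⟨p, hp, -⟩ := hrep _ f (AperyReg.mem_regFilt_neg_ord f)
    exact ⟨p, hp⟩
  have hdet := det_regEval_ne_zero htr v₀ ⟨x, hx⟩ hn0 hord w hspan hfree α P hP hα hPne
  have hk : ∃ k, regEval htr v₀ (P i) (hPne i) (w k) ≠ regEval htr v₀ (P j) (hPne j) (w k) := by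
    by_contra hall
    push Not at hall
    exact hdet (Matrix.det_zero_of_row_eq hij (funext fun k => hall k))
  obtain ⟨k, hk⟩ := hk
  refine ⟨(w k : F), ?_, fun c hi hj => hk ?_⟩
  · have h1 : (w k : F) ∈ poleFilt v₀ (ν k) := hwL k
    have h2 : ν k ≤ ((∑ k, (ν k).toNat : ℕ) : ℤ) := by
      have h3 : (ν k).toNat ≤ ∑ k, (ν k).toNat :=
        Finset.single_le_sum (f := fun k => (ν k).toNat) (fun _ _ => Nat.zero_le _)
          (Finset.mem_univ k)
      have h4 : ((ν k).toNat : ℤ) = ν k := Int.toNat_of_nonneg (hνnn k)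
      have h5 : ((ν k).toNat : ℤ) ≤ ((∑ k, (ν k).toNat : ℕ) : ℤ) := by exact_mod_cast h3
      rw [h4] at h5
      exact h5
    exact monotone_poleFilt v₀ h2 h1
  · rw [(regEval_eq_iff htr v₀ (P i) (hPne i) (w k) c).mpr hi,
      (regEval_eq_iff htr v₀ (P j) (hPne j) (w k) c).mpr hj]

end Fermat.Agent.S17.H.Fib.FibreDet
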