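/-
PROGRAM MW (S17), strand H, block D4 (HT) - the value half and the exit arithmetic (helper98).

Setting of row S17.H.D4: `F / Qb` a function field of one variable, `v₀` a place, `x` regular off
`v₀` with a pole of order `n0 > 0` at `v₀`, `φ : Fin r → F`, `ev` a value function.  For `α : Qb`
whose fibre `A` (the zeros of `x - α`) consists of `n0` distinct places:

* `card_fibre`: a fibre given by "all zeros of `x - α`, all simple" has exactly `n0` points, none
  of them `v₀`;  `exists_enum`: an enumeration `P : Fin n0 → _` of it, with the two reindexing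
  identities (sums over the fibre, sums over the ordered pairs of distinct points);
* `sum_valVec_ge` (HT-val, pointwise in `α`): from the lower comparison
  `m0 * hQ (x(v)) ≤ n0 * hT (φ(v)) + C₁` (leaf D1b) summed over the fibre:
  `m0 * hQ α - C₁ ≤ ∑_{v ∈ A} hT (φ(v))`;
* `abs_sum_valVec_sub_le` (HT-val, two-sided, from Chow): from the conclusion of `Glob.chow`
  (leaf D1) at `ψ = ![1, x]`, `M = n0`, taken as a HYPOTHESIS in its literal shape
  (`linearIndependent_one_x`, `mem_L_one_x`: the two binders `Glob.chow` asks at `ψ = ![1, x]`);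
* `offDiag_plD_eq` (HT-exit, exact): `F.offDiag (plD ev φ) A =
  2 (#A - 1) ∑_{v ∈ A} hT (φ(v)) - ∑_{(v,w) ∈ A.offDiag} hT (sig(v,w))`;
* `fibre_lower_arith`, `fibre_lower_arith_nat` (HT-exit, pointwise in `α`) and `fibre_lower_of`
  (uniform form): (HT-val) + (HT-sig) give the conclusion of row S17.H.D4.
-/
import Mathlib
import Fermat.Agent.S17.H.Glob.PlaceHeight
import Fermat.Agent.S17.H.F.Theta
import Fermat.Agent.S17.H.Fib.FibreValue

set_option autoImplicit false
set_option linter.unusedSectionVars false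
set_option linter.unusedVariables false

namespace Fermat.Agent.S17.H.Fib.FibreVal

open AlgebraicCurve
open Fermat.Agent.S24.FF Fermat.Agent.S17.H.Glob

local notation "Qb" => AlgebraicClosure ℚ

/-! ### Finite sums over ordered pairs of distinct points -/

/-- A double sum with the diagonal removed is the sum over `Finset.offDiag`. -/
theorem sum_sum_ite_eq_sum_offDiag {X : Type*} [DecidableEq X] (A : Finset X) (f : X → X → ℝ) :
    (∑ a ∈ A, ∑ b ∈ A, if a = b then 0 else f a b) = ∑ q ∈ A.offDiag, f q.1 q.2 := by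
  have hoff : A.offDiag = (A ×ˢ A).filter (fun q : X × X => q.1 ≠ q.2) := by
    ext q
    simp only [Finset.mem_offDiag, Finset.mem_filter, Finset.mem_product, and_assoc]
  rw [hoff, Finset.sum_filter, Finset.sum_product]
  refine Finset.sum_congr rfl fun a _ => Finset.sum_congr rfl fun b _ => ?_
  by_cases hab : a = b
  · simp [hab]
  · simp [hab]

/-- `F.offDiag` of a pair term `h a + h b - s a b`. -/
theorem offDiag_pair_eq {X : Type*} [DecidableEq X] (h : X → ℝ) (s : X → X → ℝ)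
    (A : Finset X) :
    _root_.Fermat.Agent.S17.H.F.offDiag (fun a b => h a + h b - s a b) A =
      2 * ((A.card : ℝ) - 1) * ∑ a ∈ A, h a - ∑ q ∈ A.offDiag, s q.1 q.2 := by
  have key : ∀ a ∈ A, (∑ b ∈ A, if a = b then 0 else (h a + h b - s a b)) =
      ((A.card : ℝ) - 1) * h a + (∑ b ∈ A, h b - h a) -
        ∑ b ∈ A, if a = b then 0 else s a b := by
    intro a ha
    have h1 : ∀ b ∈ A, (if a = b then 0 else (h a + h b - s a b)) =
        (h a + h b) - (if a = b then h a + h b else 0) - (if a = b then 0 else s a b) := by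
      intro b _
      by_cases hab : a = b
      · simp [hab]
      · simp [hab]
    have e1 : ∑ b ∈ A, (h a + h b) = (A.card : ℝ) * h a + ∑ b ∈ A, h b := by
      rw [Finset.sum_add_distrib, Finset.sum_const, nsmul_eq_mul]
    have e2 : (∑ b ∈ A, if a = b then h a + h b else 0) = h a + h a := by
      rw [Finset.sum_ite_eq, if_pos ha]
    rw [Finset.sum_congr rfl h1, Finset.sum_sub_distrib, Finset.sum_sub_distrib, e1, e2]
    ring
  have o1 : ∑ a ∈ A, (((A.card : ℝ) - 1) * h a + (∑ b ∈ A, h b - h a) -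
        ∑ b ∈ A, if a = b then 0 else s a b) =
      ((A.card : ℝ) - 1) * ∑ a ∈ A, h a + ((A.card : ℝ) * ∑ b ∈ A, h b - ∑ a ∈ A, h a) -
        ∑ a ∈ A, ∑ b ∈ A, if a = b then 0 else s a b := by
    rw [Finset.sum_sub_distrib, Finset.sum_add_distrib, Finset.sum_sub_distrib,
      ← Finset.mul_sum, Finset.sum_const, nsmul_eq_mul]
  unfold Fermat.Agent.S17.H.F.offDiag
  rw [Finset.sum_congr rfl key, o1, sum_sum_ite_eq_sum_offDiag]
  ring

/-- An enumeration of a finite set of cardinality `n`, with the reindexing identities for sums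
over the set and over the ordered pairs of distinct elements. -/
theorem exists_enum {X : Type*} [DecidableEq X] (A : Finset X) {n : ℕ} (hA : A.card = n) :
    ∃ P : Fin n → X, Function.Injective P ∧ (∀ i, P i ∈ A) ∧ (∀ u ∈ A, ∃ i, P i = u) ∧
      (∀ g : X → ℝ, ∑ i, g (P i) = ∑ u ∈ A, g u) ∧
      ∀ f : X → X → ℝ, ∑ q ∈ (Finset.univ : Finset (Fin n)).offDiag, f (P q.1) (P q.2) =
        ∑ q ∈ A.offDiag, f q.1 q.2 := by
  let e : A ≃ Fin n := A.equivFinOfCardEq hA
  let P : Fin n → X := fun i => ((e.symm i : A) : X)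
  have hPinj : Function.Injective P := fun i j hij => e.symm.injective (Subtype.ext hij)
  have hPmem : ∀ i, P i ∈ A := fun i => (e.symm i).2
  have hPsurj : ∀ u ∈ A, ∃ i, P i = u := by
    intro u hu
    refine ⟨e ⟨u, hu⟩, ?_⟩
    show ((e.symm (e ⟨u, hu⟩) : A) : X) = u
    rw [Equiv.symm_apply_apply]
  refine ⟨P, hPinj, hPmem, hPsurj, fun g => ?_, fun f => ?_⟩
  · refine Finset.sum_bij (fun i _ => P i) (fun i _ => hPmem i) (fun i _ j _ hij => hPinj hij)
      (fun u hu => ?_) (fun i _ => rfl)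
    obtain ⟨i, hi⟩ := hPsurj u hu
    exact ⟨i, Finset.mem_univ i, hi⟩
  · refine Finset.sum_bij (fun q _ => (P q.1, P q.2)) (fun q hq => ?_) (fun q _ q' _ hqq => ?_)
      (fun u hu => ?_) (fun q _ => rfl)
    · rw [Finset.mem_offDiag] at hq ⊢
      exact ⟨hPmem _, hPmem _, fun h => hq.2.2 (hPinj h)⟩
    · have h1 : P q.1 = P q'.1 := congrArg Prod.fst hqq
      have h2 : P q.2 = P q'.2 := congrArg Prod.snd hqq
      exact Prod.ext (hPinj h1) (hPinj h2)
    · rw [Finset.mem_offDiag] at hu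
      obtain ⟨i, hi⟩ := hPsurj u.1 hu.1
      obtain ⟨j, hj⟩ := hPsurj u.2 hu.2.1
      refine ⟨(i, j), ?_, Prod.ext hi hj⟩
      rw [Finset.mem_offDiag]
      refine ⟨Finset.mem_univ _, Finset.mem_univ _, fun hij => hu.2.2 ?_⟩
      rw [← hi, ← hj]
      exact congrArg P hij

/-! ### The fibre of `x` over `α` (level-free) -/

section Fibre

open Fermat.Agent.S17.R

variable {K F : Type*} [Field K] [Field F] [Algebra K F]

/-- `x - α` has the same pole at `v₀` as `x`. -/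
theorem ord_sub_algebraMap (v₀ : Place K F) {x : F} {n0 : ℕ} (hn0 : 0 < n0)
    (hord : v₀.ord x = -(n0 : ℤ)) (α : K) : v₀.ord (x - algebraMap K F α) = -(n0 : ℤ) := by
  have hx0 : x ≠ 0 := by
    rintro rfl
    rw [Place.ord_zero] at hord
    omega
  by_cases hα0 : α = 0
  · rw [hα0, map_zero, sub_zero, hord]
  · have hc : algebraMap K F α ≠ 0 := fun h0 => hα0 ((map_eq_zero (algebraMap K F)).mp h0)
    have hlt : v₀.ord x < v₀.ord (-(algebraMap K F α)) := by
      rw [ord_neg, ord_algebraMap, hord]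
      omega
    have h := ord_add_eq_of_lt v₀ hlt hx0 (neg_ne_zero.mpr hc)
    rw [sub_eq_add_neg, h, hord]

variable [IsAlgClosed K] [CharZero K] [Algebra.EssFiniteType K F]

/-- **Cardinality of an unramified fibre.**  If `A` is the set of ALL zeros of `x - α` and all of
them are simple, then `A` has exactly `n0` elements, and `v₀ ∉ A`. -/
theorem card_fibre (htr : Algebra.trdeg K F = 1) (v₀ : Place K F) {x : F} (hx : x ∈ regOff v₀)
    {n0 : ℕ} (hn0 : 0 < n0) (hord : v₀.ord x = -(n0 : ℤ)) (α : K) (A : Finset (Place K F))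
    (hA : ∀ u : Place K F, u ∈ A ↔ 0 < u.ord (x - algebraMap K F α))
    (hA1 : ∀ u ∈ A, u.ord (x - algebraMap K F α) = 1) : v₀ ∉ A ∧ A.card = n0 := by
  classical
  have hv0 := ord_sub_algebraMap v₀ hn0 hord α
  have hv₀ : v₀ ∉ A := by
    intro h
    have h1 := (hA v₀).mp h
    rw [hv0] at h1
    omega
  refine ⟨hv₀, ?_⟩
  have hdiv : divOf K (x - algebraMap K F α) =
      (∑ u ∈ A, Finsupp.single u (1 : ℤ)) - (n0 : ℤ) • Finsupp.single v₀ (1 : ℤ) := by
    ext v
    rw [divOf_apply htr, Finsupp.sub_apply, Finsupp.finsetSum_apply, Finsupp.smul_apply,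
      smul_eq_mul]
    simp only [Finsupp.single_apply]
    rw [Finset.sum_ite_eq' A v (fun _ => (1 : ℤ))]
    by_cases hv : v = v₀
    · rw [hv, if_neg hv₀, if_pos rfl, hv0]
      ring
    · rw [if_neg (Ne.symm hv)]
      by_cases hvA : v ∈ A
      · rw [if_pos hvA, hA1 v hvA]
        ring
      · rw [if_neg hvA]
        have h1 : 0 ≤ v.ord (x - algebraMap K F α) :=
          ord_nonneg_of_mem v (sub_mem (hx v hv) (v.algebraMap_mem' α))
        have h2 : ¬ 0 < v.ord (x - algebraMap K F α) := fun h => hvA ((hA v).mpr h)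
        omega
  have hdeg := degree_divOf htr (x - algebraMap K F α)
  rw [hdiv, map_sub, map_sum, map_zsmul, Divisor.degree_single, deg_eq_one htr v₀] at hdeg
  have h1 : ∀ u ∈ A, Divisor.degree (Finsupp.single u (1 : ℤ)) = 1 := by
    intro u _
    rw [Divisor.degree_single, deg_eq_one htr u]
    simp
  rw [Finset.sum_congr rfl h1] at hdeg
  simp at hdeg
  have h2 : (A.card : ℤ) = (n0 : ℤ) := by linarith
  exact_mod_cast h2

end Fibre

variable {F : Type*} [Field F] [Algebra Qb F]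

/-- **(HT-exit, exact.)** The off-diagonal sum of the pair term of record. -/
theorem offDiag_plD_eq [DecidableEq (Place Qb F)] {r : ℕ} (ev : Place Qb F → F → Qb)
    (φ : Fin r → F) (A : Finset (Place Qb F)) :
    _root_.Fermat.Agent.S17.H.F.offDiag (plD ev φ) A =
      2 * ((A.card : ℝ) - 1) * ∑ v ∈ A, hT (valVec ev φ v) -
        ∑ q ∈ A.offDiag, hT (sigVec ev φ q.1 q.2) :=
  offDiag_pair_eq (fun v => hT (valVec ev φ v)) (fun v w => hT (sigVec ev φ v w)) A

/-! ### The pencil `![1, x]` -/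

/-- The section `x - α` of the pencil `![1, x]` has coefficient vector `![-α, 1]`. -/
theorem sum_smul_one_x (x : F) (α : Qb) :
    ∑ i, (![-α, 1] : Fin 2 → Qb) i • (![1, x] : Fin 2 → F) i = x - algebraMap Qb F α := by
  rw [Fin.sum_univ_two]
  simp only [Matrix.cons_val_zero, Matrix.cons_val_one, Matrix.cons_val_fin_one,
    Algebra.smul_def, mul_one, map_neg, map_one, one_mul]
  ring

/-- `1` and `x` are linearly independent over the constants (`x` has a pole). -/
theorem linearIndependent_one_x (v₀ : Place Qb F) {x : F} {n0 : ℕ} (hn0 : 0 < n0)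
    (hord : v₀.ord x = -(n0 : ℤ)) : LinearIndependent Qb (![1, x] : Fin 2 → F) := by
  rw [LinearIndependent.pair_iff]
  intro s t h
  have h' : algebraMap Qb F s + algebraMap Qb F t * x = 0 := by
    rw [Algebra.smul_def, Algebra.smul_def, mul_one] at h
    exact h
  have ht : t = 0 := by
    by_contra ht
    have ht' : algebraMap Qb F t ≠ 0 := fun h0 =>
      ht ((map_eq_zero (algebraMap Qb F)).mp h0)
    have hxe : x = algebraMap Qb F (-(s / t)) := by
      rw [map_neg, map_div₀, eq_neg_iff_add_eq_zero, eq_comm, ← mul_right_inj' ht', mul_zero,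
        mul_add, mul_div_cancel₀ _ ht', add_comm]
      exact h'.symm
    rw [hxe, ord_algebraMap] at hord
    omega
  subst ht
  refine ⟨?_, rfl⟩
  rw [map_zero, zero_mul, add_zero] at h'
  exact (map_eq_zero (algebraMap Qb F)).mp h'

/-- A function regular off `v₀` with pole order `≤ n` at `v₀` is a section of `n · v₀`. -/
theorem mem_L_of_regOff (v₀ : Place Qb F) {f : F} (hf : RegOff v₀ f) {n : ℕ}
    (hord : -(n : ℤ) ≤ v₀.ord f) :
    f ∈ riemannRochSpace ((n : ℤ) • Finsupp.single v₀ (1 : ℤ)) := by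
  rw [Fermat.Agent.S17.R.mem_L_iff]
  refine Or.inr fun v => ?_
  by_cases hv : v = v₀
  · rw [hv, Fermat.Agent.S17.R.Eval.nsmul_single_apply_self]
    exact hord
  · rw [Fermat.Agent.S17.R.Eval.nsmul_single_apply_of_ne hv, neg_zero]
    exact ord_nonneg_of_mem v (hf v hv)

/-- `1` and `x` are sections of `n0 · v₀`. -/
theorem mem_L_one_x (v₀ : Place Qb F) {x : F} (hx : RegOff v₀ x) {n0 : ℕ}
    (hord : v₀.ord x = -(n0 : ℤ)) :
    ∀ i, (![1, x] : Fin 2 → F) i ∈
      riemannRochSpace ((n0 : ℤ) • Finsupp.single v₀ (1 : ℤ)) := by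
  have h1 : (1 : F) ∈ riemannRochSpace ((n0 : ℤ) • Finsupp.single v₀ (1 : ℤ)) := by
    refine mem_L_of_regOff v₀ RegOff.one ?_
    have h0 : v₀.ord (1 : F) = 0 := by
      have := ord_algebraMap v₀ (1 : Qb)
      rwa [map_one] at this
    rw [h0]
    omega
  have h2 : x ∈ riemannRochSpace ((n0 : ℤ) • Finsupp.single v₀ (1 : ℤ)) :=
    mem_L_of_regOff v₀ hx (le_of_eq hord.symm)
  intro i
  refine Fin.cases ?_ (fun j => ?_) i
  · exact h1
  · have hj : j = 0 := Subsingleton.elim _ _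
    subst hj
    exact h2

/-! ### (HT-val) -/

/-- **(HT-val.)** On an unramified fibre `A` of `x` over `α`, the sum of the heights of the value
vectors is `m0 * hQ α` up to a constant - from the conclusion of `Glob.chow` for the pencil
`![1, x]` (hypothesis `hchow`, literal shape of row S17.H.D1 at `n = 2`, `ψ = ![1, x]`). -/
theorem abs_sum_valVec_sub_le [Algebra.EssFiniteType Qb F]
    (htr : Algebra.trdeg Qb F = 1)
    (v₀ : Place Qb F) {ev : Place Qb F → F → Qb} {x : F} (hx : RegOff v₀ x) {n0 : ℕ}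
    (hn0 : 0 < n0) (hord : v₀.ord x = -(n0 : ℤ)) {m0 r : ℕ} (hm0 : 0 < m0) (φ : Fin r → F)
    (hchow : ∃ C : ℝ, ∀ c : Fin 2 → Qb, c ≠ 0 →
      |(∑ᶠ v ∈ {v : Place Qb F | v ≠ v₀},
          ((v.ord (∑ i, c i • (![1, x] : Fin 2 → F) i) : ℤ) : ℝ) *
            hT (fun i => ev v (φ i))) / (m0 : ℝ) - hT c| ≤ C) :
    ∃ C : ℝ, ∀ (α : Qb) (A : Finset (Place Qb F)), A.card = n0 →
      (∀ v ∈ A, 0 < v.ord (x - algebraMap Qb F α)) →
      |∑ v ∈ A, hT (valVec ev φ v) - (m0 : ℝ) * hQ α| ≤ C := by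
  classical
  obtain ⟨C, hC⟩ := hchow
  refine ⟨(m0 : ℝ) * C, fun α A hA hα => ?_⟩
  -- enumerate the fibre
  let e : A ≃ Fin n0 := A.equivFinOfCardEq hA
  let P : Fin n0 → Place Qb F := fun i => ((e.symm i : A) : Place Qb F)
  have hPinj : Function.Injective P := fun i j hij => e.symm.injective (Subtype.ext hij)
  have hPmem : ∀ i, P i ∈ A := fun i => (e.symm i).2
  have hPsurj : ∀ v ∈ A, ∃ i, v = P i := by
    intro v hv
    refine ⟨e ⟨v, hv⟩, ?_⟩
    show v = ((e.symm (e ⟨v, hv⟩) : A) : Place Qb F)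
    rw [Equiv.symm_apply_apply]
  have hx' : x ∈ Fermat.Agent.S17.R.regOff v₀ := hx
  obtain ⟨hPne, hP1, hP0⟩ :=
    fibre_ord htr v₀ hx' hn0 hord α P hPinj (fun i => hα _ (hPmem i))
  have hc0 : (![-α, 1] : Fin 2 → Qb) ≠ 0 := by
    intro h
    have h1 := congrFun h 1
    simp at h1
  have h1 := hC ![-α, 1] hc0
  rw [sum_smul_one_x] at h1
  have hsum : (∑ᶠ v ∈ {v : Place Qb F | v ≠ v₀},
      ((v.ord (x - algebraMap Qb F α) : ℤ) : ℝ) * hT (fun i => ev v (φ i))) =
      ∑ v ∈ A, hT (valVec ev φ v) := by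
    rw [finsum_mem_eq_sum_of_inter_support_eq (t := A)]
    · refine Finset.sum_congr rfl fun v hv => ?_
      obtain ⟨i, rfl⟩ := hPsurj v hv
      rw [hP1 i, Int.cast_one, one_mul]
      rfl
    · ext v
      simp only [Set.mem_inter_iff, Set.mem_ofPred_eq, Function.mem_support, Finset.mem_coe]
      constructor
      · rintro ⟨hv, hne⟩
        refine ⟨?_, hne⟩
        by_contra hvA
        apply hne
        rw [hP0 v hv (fun i hi => hvA (hi ▸ hPmem i)), Int.cast_zero, zero_mul]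
      · rintro ⟨hvA, hne⟩
        obtain ⟨i, rfl⟩ := hPsurj v hvA
        exact ⟨hPne i, hne⟩
  rw [hsum] at h1
  have hQ' : hT (![-α, 1] : Fin 2 → Qb) = hQ α := hQ_neg α
  rw [hQ'] at h1
  have hm : (0 : ℝ) < m0 := Nat.cast_pos.mpr hm0
  have h2 : ∑ v ∈ A, hT (valVec ev φ v) - (m0 : ℝ) * hQ α =
      (m0 : ℝ) * ((∑ v ∈ A, hT (valVec ev φ v)) / (m0 : ℝ) - hQ α) := by
    field_simp
  rw [h2, abs_mul, abs_of_pos hm]
  exact mul_le_mul_of_nonneg_left h1 hm.le

/-- **(HT-val, pointwise.)** The lower comparison `m0 * hQ (x(v)) ≤ n0 * hT (φ(v)) + C₁` (leaf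
D1b), summed over a fibre `A` of `x` over `α` with `n0` points off `v₀`. -/
theorem sum_valVec_ge (v₀ : Place Qb F) {ev : Place Qb F → F → Qb} (hev : IsEval ev) {x : F}
    (hx : RegOff v₀ x) {n0 m0 r : ℕ} (hn0 : 0 < n0) (φ : Fin r → F) (C₁ : ℝ)
    (hcmp : ∀ v : Place Qb F, v ≠ v₀ →
      (m0 : ℝ) * hQ (ev v x) ≤ (n0 : ℝ) * hT (valVec ev φ v) + C₁)
    (α : Qb) (A : Finset (Place Qb F)) (hA : A.card = n0) (hv₀ : v₀ ∉ A)
    (hα : ∀ v ∈ A, 0 < v.ord (x - algebraMap Qb F α)) :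
    (m0 : ℝ) * hQ α - C₁ ≤ ∑ v ∈ A, hT (valVec ev φ v) := by
  have hpt : ∀ v ∈ A, (m0 : ℝ) * hQ α ≤ (n0 : ℝ) * hT (valVec ev φ v) + C₁ := by
    intro v hv
    have hvne : v ≠ v₀ := fun h => hv₀ (h ▸ hv)
    have hval : ev v x = α :=
      hev.eq_of_valuation_lt (hx v hvne) ((valuation_lt_one_iff v _).mpr (Or.inr (hα v hv)))
    have h1 := hcmp v hvne
    rwa [hval] at h1
  have hsum := Finset.sum_le_sum hpt
  rw [Finset.sum_const, nsmul_eq_mul, hA, Finset.sum_add_distrib, ← Finset.mul_sum,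
    Finset.sum_const, nsmul_eq_mul, hA] at hsum
  have hn : (0 : ℝ) < n0 := Nat.cast_pos.mpr hn0
  have h2 : (n0 : ℝ) * ((m0 : ℝ) * hQ α - C₁) ≤ (n0 : ℝ) * ∑ v ∈ A, hT (valVec ev φ v) := by
    linarith
  exact le_of_mul_le_mul_left h2 hn

/-! ### (HT-exit) -/

/-- **(HT-exit, pointwise.)** The arithmetic of the fibre inequality at one fibre: the value half
`m0 * a - C₁ ≤ ∑ hT (φ(v))` and the secant half (additive shape) give
`(2 n0 + 2 g - 2) a - C ≤ F.offDiag (plD ev φ) A`. -/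
theorem fibre_lower_arith [DecidableEq (Place Qb F)] {r : ℕ} (ev : Place Qb F → F → Qb)
    (φ : Fin r → F) {n0 m0 g : ℕ} (hn0 : 0 < n0) (A : Finset (Place Qb F)) (hA : A.card = n0)
    (a C₁ C₂ : ℝ) (hval : (m0 : ℝ) * a - C₁ ≤ ∑ v ∈ A, hT (valVec ev φ v))
    (hsig : ∑ q ∈ A.offDiag, hT (sigVec ev φ q.1 q.2) + 2 * (g : ℝ) * a ≤
      ((n0 : ℝ) - 1) * (2 * (m0 : ℝ) - 2) * a + C₂) :
    (2 * (n0 : ℝ) + 2 * (g : ℝ) - 2) * a - (2 * ((n0 : ℝ) - 1) * C₁ + C₂) ≤
      _root_.Fermat.Agent.S17.H.F.offDiag (plD ev φ) A := by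
  rw [offDiag_plD_eq, hA]
  have hN : (0 : ℝ) ≤ (n0 : ℝ) - 1 := by
    have h1' : (1 : ℝ) ≤ (n0 : ℝ) := by exact_mod_cast hn0
    linarith
  have hmul := mul_le_mul_of_nonneg_left hval (mul_nonneg zero_le_two hN)
  nlinarith [hmul, hsig]

/-- **(HT-exit, pointwise, ℕ-exponent form.)** The same with the secant half in the shape
`∑ hT (sig) ≤ E * a + C₂` for a natural exponent with `E + 2 g ≤ (n0 - 1) (2 m0 - 2)` (the
implication form of the degree clause of the reduced fibre polynomial). -/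
theorem fibre_lower_arith_nat [DecidableEq (Place Qb F)] {r : ℕ} (ev : Place Qb F → F → Qb)
    (φ : Fin r → F) {n0 m0 g : ℕ} (hn0 : 0 < n0) (hm0 : 0 < m0) (A : Finset (Place Qb F))
    (hA : A.card = n0) (a C₁ C₂ : ℝ) (ha : 0 ≤ a) (E : ℕ)
    (hE : E + 2 * g ≤ (n0 - 1) * (2 * m0 - 2))
    (hval : (m0 : ℝ) * a - C₁ ≤ ∑ v ∈ A, hT (valVec ev φ v))
    (hsig : ∑ q ∈ A.offDiag, hT (sigVec ev φ q.1 q.2) ≤ (E : ℝ) * a + C₂) :
    (2 * (n0 : ℝ) + 2 * (g : ℝ) - 2) * a - (2 * ((n0 : ℝ) - 1) * C₁ + C₂) ≤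
      _root_.Fermat.Agent.S17.H.F.offDiag (plD ev φ) A := by
  refine fibre_lower_arith ev φ hn0 A hA a C₁ C₂ hval ?_
  have hE' : (E : ℝ) + 2 * (g : ℝ) ≤ ((n0 : ℝ) - 1) * (2 * (m0 : ℝ) - 2) := by
    have h := (Nat.cast_le (α := ℝ)).mpr hE
    have h2 : 2 ≤ 2 * m0 := by omega
    have h1 : 1 ≤ n0 := hn0
    push_cast [Nat.cast_sub h1, Nat.cast_sub h2] at h
    linarith
  have h3 := mul_le_mul_of_nonneg_right hE' ha
  linarith

/-- **(HT-exit.)** The fibre inequality of row S17.H.D4 from its two halves: (HT-val) and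
(HT-sig) (the bound for the secant vectors, in additive shape). -/
theorem fibre_lower_of [DecidableEq (Place Qb F)] {ev : Place Qb F → F → Qb} {x : F}
    {n0 m0 r g : ℕ} (hn0 : 0 < n0) (φ : Fin r → F)
    (hval : ∃ C : ℝ, ∀ (α : Qb) (A : Finset (Place Qb F)), A.card = n0 →
      (∀ v ∈ A, 0 < v.ord (x - algebraMap Qb F α)) →
      |∑ v ∈ A, hT (valVec ev φ v) - (m0 : ℝ) * hQ α| ≤ C)
    (hsig : ∃ C : ℝ, ∀ (α : Qb) (A : Finset (Place Qb F)), A.card = n0 →
      (∀ v ∈ A, 0 < v.ord (x - algebraMap Qb F α)) →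
      ∑ q ∈ A.offDiag, hT (sigVec ev φ q.1 q.2) + 2 * (g : ℝ) * hQ α ≤
        ((n0 : ℝ) - 1) * (2 * (m0 : ℝ) - 2) * hQ α + C) :
    ∃ C : ℝ, ∀ (α : Qb) (A : Finset (Place Qb F)), A.card = n0 →
      (∀ v ∈ A, 0 < v.ord (x - algebraMap Qb F α)) →
      (2 * (n0 : ℝ) + 2 * (g : ℝ) - 2) * hQ α - C ≤
        _root_.Fermat.Agent.S17.H.F.offDiag (plD ev φ) A := by
  obtain ⟨C₁, h1⟩ := hval
  obtain ⟨C₂, h2⟩ := hsig
  refine ⟨2 * ((n0 : ℝ) - 1) * C₁ + C₂, fun α A hA hα => ?_⟩
  have hv := h1 α A hA hα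
  have hv' : (m0 : ℝ) * hQ α - C₁ ≤ ∑ v ∈ A, hT (valVec ev φ v) := by
    have h3 := (abs_le.mp hv).1
    linarith
  exact fibre_lower_arith ev φ hn0 A hA (hQ α) C₁ C₂ hv' (h2 α A hA hα)

end Fermat.Agent.S17.H.Fib.FibreVal
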