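import Mathlib
import Fermat.Prelude.Def_AlgebraicCurve_DivisorClassGroup
import Fermat.Agent.S17.H.Fib.PairCore
import Fermat.Agent.S17.H.Glob.WeightedDet

/-!
# PROGRAM MW (S17), strand H, block D4 (FIB), leaf D4c: the degree of the fibre polynomial

`G = fibrePoly u v` (helper29's `Fib/PairCore.lean`) is the coefficient of `X ^ |n|` in the
characteristic polynomial of the pair matrix `∑ s, X s • (u s ⊗ₖ v s - v s ⊗ₖ u s)`.

* `fibrePoly_mem` / `fibrePoly_coeff_mem` : abstract weighted-degree form.  If the entries of the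
  matrices satisfy `u s i j ∈ W (μ s + ν j - ν i)`, `v s i j ∈ W (μ' s + ν j - ν i)` for a
  multiplicative filtration `W` and `μ s + μ' s ≤ d`, then every coefficient of `fibrePoly u v` lies
  in `W ((|n| ^ 2 - |n|) * d)`.
* `natDegree_coeff_fibrePoly_le` : the same over a polynomial ring `B[X]` with
  `c * natDegree (u s i j) + ν i ≤ μ s + ν j`.
* `natDegree_coeff_fibrePoly_le_of_apery` : **D4c**.  For a function field `F / K`, a place `v₀`, a
  family `w : Fin n0 → F` with pole orders `ν i` at `v₀` satisfying the Apéry maximum property (the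
  third clause of `R.exists_apery_basis`), and `u s`, `v s` the `K[x]`-matrices of multiplication by
  `φ s`, `ψ s` on `w` with `pole (φ s) + pole (ψ s) ≤ d`: every coefficient of
  `G = fibrePoly u v ∈ K[x][t]` has `x`-degree `≤ (n0 - 1) * d`.
* `natDegree_coeff_fibrePoly_le_of_apery_two` : the form consumed by D4e, `d = 2 * m0 - 1`
  (both pole orders `≤ m0`, not both equal to `m0`): `deg_x G ≤ (n0 - 1) * (2 * m0 - 1)`.

No Galois closure and no valuation of a splitting field: the bound is read off the determinant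
expansion (`Glob/WeightedDet.lean`).
-/

set_option autoImplicit false
set_option linter.unusedSectionVars false

namespace Fermat.Agent.S17.H.Fib

open Matrix AlgebraicCurve
open Fermat.Agent.S17.H.Glob.WeightedDet

section Abstract

variable {A : Type*} [CommRing A] {τ n : Type*} [Fintype τ] [Fintype n] [DecidableEq n]
variable {W : ℤ → AddSubgroup A}

/-- The entries of the pair matrix, in the coefficientwise filtration of `MvPolynomial τ A`. -/
theorem pairMat_apply_mem (hW : IsMulFilt W) (hmono : Monotone W) (ν : n → ℤ) (μ μ' : τ → ℤ)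
    (d : ℤ) (u v : τ → Matrix n n A) (hu : ∀ s i j, u s i j ∈ W (μ s + ν j - ν i))
    (hv : ∀ s i j, v s i j ∈ W (μ' s + ν j - ν i)) (hμ : ∀ s, μ s + μ' s ≤ d) (x y : n × n) :
    pairMat u v x y ∈ mvFilt W (fun _ : τ => (0 : ℤ)) (d + (ν y.1 + ν y.2) - (ν x.1 + ν x.2)) := by
  unfold pairMat
  rw [Matrix.sum_apply]
  refine AddSubgroup.sum_mem _ fun s _ => ?_
  rw [Matrix.smul_apply, Matrix.map_apply, Matrix.sub_apply, kroneckerMap_apply,
    kroneckerMap_apply, smul_eq_mul]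
  have h1 : u s x.1 y.1 * v s x.2 y.2 ∈
      W (μ s + μ' s + (ν y.1 + ν y.2) - (ν x.1 + ν x.2)) := by
    have h := hW.mul_mem (hu s x.1 y.1) (hv s x.2 y.2)
    have he : μ s + ν y.1 - ν x.1 + (μ' s + ν y.2 - ν x.2)
        = μ s + μ' s + (ν y.1 + ν y.2) - (ν x.1 + ν x.2) := by ring
    rwa [he] at h
  have h2 : v s x.1 y.1 * u s x.2 y.2 ∈
      W (μ s + μ' s + (ν y.1 + ν y.2) - (ν x.1 + ν x.2)) := by
    have h := hW.mul_mem (hv s x.1 y.1) (hu s x.2 y.2)
    have he : μ' s + ν y.1 - ν x.1 + (μ s + ν y.2 - ν x.2)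
        = μ s + μ' s + (ν y.1 + ν y.2) - (ν x.1 + ν x.2) := by ring
    rwa [he] at h
  have h3 : u s x.1 y.1 * v s x.2 y.2 - v s x.1 y.1 * u s x.2 y.2 ∈
      W (d + (ν y.1 + ν y.2) - (ν x.1 + ν x.2)) := by
    refine hmono ?_ ((W _).sub_mem h1 h2)
    have := hμ s
    linarith
  have hX := X_mem_mvFilt hW (fun _ : τ => (0 : ℤ)) s
  have hC := C_mem_mvFilt (W := W) (fun _ : τ => (0 : ℤ)) h3
  have h := (isMulFilt_mvFilt hW (fun _ : τ => (0 : ℤ))).mul_mem hX hC
  rwa [zero_add] at h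

/-- The fibre polynomial, in the coefficientwise filtration of `MvPolynomial τ A`. -/
theorem fibrePoly_mem (hW : IsMulFilt W) (hmono : Monotone W) (ν : n → ℤ) (μ μ' : τ → ℤ)
    (d : ℤ) (u v : τ → Matrix n n A) (hu : ∀ s i j, u s i j ∈ W (μ s + ν j - ν i))
    (hv : ∀ s i j, v s i j ∈ W (μ' s + ν j - ν i)) (hμ : ∀ s, μ s + μ' s ≤ d) :
    fibrePoly u v ∈ mvFilt W (fun _ : τ => (0 : ℤ))
      (((Fintype.card n : ℤ) ^ 2 - (Fintype.card n : ℤ)) * d) := by
  have h := charpoly_coeff_mem (isMulFilt_mvFilt hW (fun _ : τ => (0 : ℤ)))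
    (fun x : n × n => ν x.1 + ν x.2) d (pairMat u v)
    (fun x y => pairMat_apply_mem hW hmono ν μ μ' d u v hu hv hμ x y) (Fintype.card n)
  have hcard : (Fintype.card (n × n) : ℤ) = (Fintype.card n : ℤ) ^ 2 := by
    rw [Fintype.card_prod]; push_cast; ring
  rw [hcard] at h
  exact h

/-- **D4c, abstract form**: every coefficient of the fibre polynomial lies in
`W ((|n| ^ 2 - |n|) * d)`. -/
theorem fibrePoly_coeff_mem (hW : IsMulFilt W) (hmono : Monotone W) (ν : n → ℤ) (μ μ' : τ → ℤ)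
    (d : ℤ) (u v : τ → Matrix n n A) (hu : ∀ s i j, u s i j ∈ W (μ s + ν j - ν i))
    (hv : ∀ s i j, v s i j ∈ W (μ' s + ν j - ν i)) (hμ : ∀ s, μ s + μ' s ≤ d) (m : τ →₀ ℕ) :
    (fibrePoly u v).coeff m ∈ W (((Fintype.card n : ℤ) ^ 2 - (Fintype.card n : ℤ)) * d) := by
  have h := fibrePoly_mem hW hmono ν μ μ' d u v hu hv hμ m
  have h0 : monWeight (fun _ : τ => (0 : ℤ)) m = 0 := by
    simp [monWeight]
  rwa [h0, sub_zero] at h

end Abstract

section PolynomialRing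

variable {B : Type*} [CommRing B] {τ n : Type*} [Fintype τ] [Fintype n] [DecidableEq n]

/-- **D4c over a polynomial ring.**  If `c * natDegree (u s i j) + ν i ≤ μ s + ν j` and
`c * natDegree (v s i j) + ν i ≤ μ' s + ν j` for the nonzero entries, and `μ s + μ' s ≤ d`, then
every coefficient of `fibrePoly u v` has `c * natDegree ≤ (|n| ^ 2 - |n|) * d`. -/
theorem natDegree_coeff_fibrePoly_le {c : ℤ} (hc : 0 ≤ c) (ν : n → ℤ) (μ μ' : τ → ℤ) {d : ℤ}
    (hd : 0 ≤ d) (u v : τ → Matrix n n (Polynomial B))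
    (hu : ∀ s i j, u s i j ≠ 0 → c * ((u s i j).natDegree : ℤ) + ν i ≤ μ s + ν j)
    (hv : ∀ s i j, v s i j ≠ 0 → c * ((v s i j).natDegree : ℤ) + ν i ≤ μ' s + ν j)
    (hμ : ∀ s, μ s + μ' s ≤ d) (m : τ →₀ ℕ) :
    c * (((fibrePoly u v).coeff m).natDegree : ℤ) ≤
      ((Fintype.card n : ℤ) ^ 2 - (Fintype.card n : ℤ)) * d := by
  have hu' : ∀ s i j, u s i j ∈ degFilt B c (μ s + ν j - ν i) := by
    intro s i j
    by_cases h0 : u s i j = 0
    · rw [h0]; exact (degFilt B c _).zero_mem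
    · exact mem_degFilt_of_natDegree_le hc (by have := hu s i j h0; linarith)
  have hv' : ∀ s i j, v s i j ∈ degFilt B c (μ' s + ν j - ν i) := by
    intro s i j
    by_cases h0 : v s i j = 0
    · rw [h0]; exact (degFilt B c _).zero_mem
    · exact mem_degFilt_of_natDegree_le hc (by have := hv s i j h0; linarith)
  have h := fibrePoly_coeff_mem (isMulFilt_degFilt c) (monotone_degFilt c) ν μ μ' d u v hu' hv'
    hμ m
  refine natDegree_le_of_mem_degFilt h ?_
  have h1 : (Fintype.card n : ℤ) ≤ (Fintype.card n : ℤ) ^ 2 := by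
    have h0 : (0 : ℤ) ≤ (Fintype.card n : ℤ) := Int.natCast_nonneg _
    rcases Nat.eq_zero_or_pos (Fintype.card n) with h | h
    · rw [h]; simp
    · have h1 : (1 : ℤ) ≤ (Fintype.card n : ℤ) := by exact_mod_cast h
      nlinarith
  exact mul_nonneg (by linarith) hd

end PolynomialRing

section Apery

variable {K F : Type*} [Field K] [Field F] [Algebra K F] {τ : Type*} [Fintype τ]

/-- The members of a family `w` with unique `K[x]`-representations (second clause of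
`R.exists_apery_basis`, for any set `S` of functions containing `0`) are nonzero. -/
theorem ne_zero_of_existsUnique {x : F} {n0 : ℕ} (w : Fin n0 → F) (S : Set F) (h0 : (0 : F) ∈ S)
    (huniq : ∀ f ∈ S, ∃! c : Fin n0 → Polynomial K, f = ∑ i, Polynomial.aeval x (c i) * w i)
    (i : Fin n0) : w i ≠ 0 := by
  classical
  intro hwi
  obtain ⟨c, -, hc⟩ := huniq 0 h0
  have h1 : (0 : Fin n0 → Polynomial K) = c := hc 0 (by simp)
  have h2 : (Pi.single i (1 : Polynomial K) : Fin n0 → Polynomial K) = c := by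
    refine hc _ ?_
    show (0 : F) = ∑ j, Polynomial.aeval x ((Pi.single i (1 : Polynomial K) :
      Fin n0 → Polynomial K) j) * w j
    refine (Finset.sum_eq_zero fun j _ => ?_).symm
    by_cases hji : j = i
    · subst hji; rw [hwi, mul_zero]
    · rw [Pi.single_eq_of_ne hji, map_zero, zero_mul]
  have h3 : (Pi.single i (1 : Polynomial K) : Fin n0 → Polynomial K) i = 0 := by
    rw [h2, ← h1]; rfl
  rw [Pi.single_eq_same] at h3
  exact one_ne_zero h3

/-- **D4c.**  Let `w : Fin n0 → F` have pole orders `ν i` at the place `v₀` and satisfy the Apéry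
maximum property over `K[x]` (third clause of `R.exists_apery_basis`).  Let `u s`, `v s` be
`K[x]`-matrices of multiplication by `φ s`, `ψ s` on `w`, with
`pole (φ s) + pole (ψ s) ≤ d` at `v₀`.  Then every coefficient of `G = fibrePoly u v ∈ K[x][t]`
has degree `≤ (n0 - 1) * d` in `x`. -/
theorem natDegree_coeff_fibrePoly_le_of_apery (v₀ : Place K F) {x : F} {n0 : ℕ} (hn0 : 0 < n0)
    (ν : Fin n0 → ℕ) (w : Fin n0 → F) (hw0 : ∀ i, w i ≠ 0)
    (hwo : ∀ i, v₀.ord (w i) = -(ν i : ℤ))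
    (hmax : ∀ c : Fin n0 → Polynomial K, (∑ i, Polynomial.aeval x (c i) * w i) ≠ 0 →
      ∀ i, c i ≠ 0 → v₀.ord (∑ i, Polynomial.aeval x (c i) * w i) ≤
        -((n0 * (c i).natDegree + ν i : ℕ) : ℤ))
    (φ ψ : τ → F) (hφ0 : ∀ s, φ s ≠ 0) (hψ0 : ∀ s, ψ s ≠ 0) {d : ℕ}
    (hd : ∀ s, -(d : ℤ) ≤ v₀.ord (φ s) + v₀.ord (ψ s))
    (u v : τ → Matrix (Fin n0) (Fin n0) (Polynomial K))
    (hu : ∀ s j, φ s * w j = ∑ i, Polynomial.aeval x (u s i j) * w i)
    (hv : ∀ s j, ψ s * w j = ∑ i, Polynomial.aeval x (v s i j) * w i) (m : τ →₀ ℕ) :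
    ((fibrePoly u v).coeff m).natDegree ≤ (n0 - 1) * d := by
  have key : ∀ (f : F), f ≠ 0 → ∀ (a : Matrix (Fin n0) (Fin n0) (Polynomial K)),
      (∀ j, f * w j = ∑ i, Polynomial.aeval x (a i j) * w i) → ∀ i j, a i j ≠ 0 →
      (n0 : ℤ) * ((a i j).natDegree : ℤ) + (ν i : ℤ) ≤ -v₀.ord f + (ν j : ℤ) := by
    intro f hf a ha i j hij
    have hne : (∑ i, Polynomial.aeval x (a i j) * w i) ≠ 0 := by
      rw [← ha j]; exact mul_ne_zero hf (hw0 j)
    have h := hmax (fun i => a i j) hne i hij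
    rw [← ha j, v₀.ord_mul hf (hw0 j), hwo j] at h
    push_cast at h
    linarith
  have h := natDegree_coeff_fibrePoly_le (B := K) (c := (n0 : ℤ)) (Int.natCast_nonneg _)
    (fun i : Fin n0 => (ν i : ℤ)) (fun s => -v₀.ord (φ s)) (fun s => -v₀.ord (ψ s))
    (d := (d : ℤ)) (Int.natCast_nonneg _) u v
    (fun s i j hij => key (φ s) (hφ0 s) (u s) (hu s) i j hij)
    (fun s i j hij => key (ψ s) (hψ0 s) (v s) (hv s) i j hij)
    (fun s => by have := hd s; linarith) m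
  rw [Fintype.card_fin] at h
  have hn1 : (1 : ℤ) ≤ (n0 : ℤ) := by exact_mod_cast hn0
  have hcast : (((n0 - 1 : ℕ)) : ℤ) = (n0 : ℤ) - 1 := by
    rw [Nat.cast_sub hn0]; simp
  have h2 : (n0 : ℤ) * (((fibrePoly u v).coeff m).natDegree : ℤ) ≤
      (n0 : ℤ) * ((((n0 - 1 : ℕ)) : ℤ) * (d : ℤ)) := by
    rw [hcast]
    calc (n0 : ℤ) * (((fibrePoly u v).coeff m).natDegree : ℤ)
        ≤ ((n0 : ℤ) ^ 2 - (n0 : ℤ)) * (d : ℤ) := h
      _ = (n0 : ℤ) * (((n0 : ℤ) - 1) * (d : ℤ)) := by ring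
  have h3 : (((fibrePoly u v).coeff m).natDegree : ℤ) ≤ (((n0 - 1 : ℕ)) : ℤ) * (d : ℤ) :=
    le_of_mul_le_mul_left h2 (by linarith)
  exact_mod_cast h3

/-- **D4c in the form consumed by D4e**: both pole orders are `≤ m0` and never both equal to `m0`
(the coordinates of `sig` are indexed by pairs `a < b`, so `top-top` does not occur), hence
`deg_x G ≤ (n0 - 1) * (2 * m0 - 1)`. -/
theorem natDegree_coeff_fibrePoly_le_of_apery_two (v₀ : Place K F) {x : F} {n0 : ℕ} (hn0 : 0 < n0)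
    (ν : Fin n0 → ℕ) (w : Fin n0 → F) (hw0 : ∀ i, w i ≠ 0)
    (hwo : ∀ i, v₀.ord (w i) = -(ν i : ℤ))
    (hmax : ∀ c : Fin n0 → Polynomial K, (∑ i, Polynomial.aeval x (c i) * w i) ≠ 0 →
      ∀ i, c i ≠ 0 → v₀.ord (∑ i, Polynomial.aeval x (c i) * w i) ≤
        -((n0 * (c i).natDegree + ν i : ℕ) : ℤ))
    (φ ψ : τ → F) (hφ0 : ∀ s, φ s ≠ 0) (hψ0 : ∀ s, ψ s ≠ 0) {m0 : ℕ} (hm0 : 0 < m0)
    (hφ : ∀ s, -(m0 : ℤ) ≤ v₀.ord (φ s)) (hψ : ∀ s, -(m0 : ℤ) ≤ v₀.ord (ψ s))
    (hne : ∀ s, -(m0 : ℤ) < v₀.ord (φ s) ∨ -(m0 : ℤ) < v₀.ord (ψ s))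
    (u v : τ → Matrix (Fin n0) (Fin n0) (Polynomial K))
    (hu : ∀ s j, φ s * w j = ∑ i, Polynomial.aeval x (u s i j) * w i)
    (hv : ∀ s j, ψ s * w j = ∑ i, Polynomial.aeval x (v s i j) * w i) (m : τ →₀ ℕ) :
    ((fibrePoly u v).coeff m).natDegree ≤ (n0 - 1) * (2 * m0 - 1) := by
  refine natDegree_coeff_fibrePoly_le_of_apery v₀ hn0 ν w hw0 hwo hmax φ ψ hφ0 hψ0
    (d := 2 * m0 - 1) (fun s => ?_) u v hu hv m
  have hcast : (((2 * m0 - 1 : ℕ)) : ℤ) = 2 * (m0 : ℤ) - 1 := by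
    have h1 : 1 ≤ 2 * m0 := by omega
    rw [Nat.cast_sub h1]; push_cast; ring
  rw [hcast]
  have h1 := hφ s
  have h2 := hψ s
  rcases hne s with h | h <;> omega

end Apery

end Fermat.Agent.S17.H.Fib
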